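import Mathlib

set_option autoImplicit false

open scoped Manifold Real Topology
open UpperHalfPlane Filter Asymptotics Function

namespace Fermat.Agent.S22

/-- A function on `ℍ` invariant under translation by `h` gives an `h`-periodic function
on `ℂ` after composing with `ofComplex`. -/
theorem periodic_comp_ofComplex_of_vadd {g : ℍ → ℂ} {h : ℝ}
    (hper : ∀ τ : ℍ, g (h +ᵥ τ) = g τ) : Function.Periodic (g ∘ ofComplex) h := by
  intro w
  by_cases hw : 0 < w.im
  · have : 0 < (w + h).im := by simp [hw]
    simp only [comp_apply, ofComplex_apply_of_im_pos this, ofComplex_apply_of_im_pos hw]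
    rw [← hper ⟨w, hw⟩]
    congr 1
    ext
    simp [add_comm]
  · have hw' : w.im ≤ 0 := not_lt.mp hw
    have : (w + h).im ≤ 0 := by simpa using hw'
    simp [ofComplex_apply_of_im_nonpos this, ofComplex_apply_of_im_nonpos hw']

/-- `qParam h` is `h`-periodic. -/
theorem periodic_qParam' {h : ℝ} (hh : h ≠ 0) : Function.Periodic (Function.Periodic.qParam h) h := by
  intro z
  have hC : (h : ℂ) ≠ 0 := by exact_mod_cast hh
  simp only [Function.Periodic.qParam]
  have : 2 * (π : ℂ) * Complex.I * (z + h) / h = 2 * π * Complex.I * z / h + 2 * π * Complex.I := by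
    field_simp
  rw [this, Complex.exp_add, Complex.exp_two_pi_mul_I, mul_one]

/-- polynomial times decaying exponential tends to zero -/
theorem tendsto_const_mul_pow_mul_exp_neg (C : ℝ) (m : ℕ) {c : ℝ} (hc : 0 < c) :
    Tendsto (fun y : ℝ => C * (1 + y) ^ m * Real.exp (-c * y)) atTop (𝓝 0) := by
  have h1 : Tendsto (fun u : ℝ => u ^ m / Real.exp (c * u)) atTop (𝓝 0) :=
    (isLittleO_pow_exp_pos_mul_atTop m hc).tendsto_div_nhds_zero
  have h2 : Tendsto (fun y : ℝ => 1 + y) atTop atTop := tendsto_atTop_add_const_left _ _ tendsto_id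
  have h3 := (h1.comp h2).const_mul (C * Real.exp c)
  rw [mul_zero] at h3
  refine h3.congr fun y => ?_
  simp only [comp_apply]
  have : Real.exp (c * (1 + y)) = Real.exp c * Real.exp (c * y) := by
    rw [mul_add, mul_one, Real.exp_add]
  rw [this, neg_mul, Real.exp_neg]
  field_simp

/-- **Removable singularity at the cusp**: a holomorphic `h`-periodic function on `ℍ` of
polynomial growth in `Im τ` (on a vertical strip) is bounded at `i∞`. -/
theorem isBoundedAtImInfty_of_periodic_of_polyGrowth {g : ℍ → ℂ} (hg : MDiff g) {h : ℕ}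
    (hh : 0 < h) (hper : ∀ τ : ℍ, g ((h : ℝ) +ᵥ τ) = g τ) {C Y : ℝ} {m : ℕ}
    (hbd : ∀ τ : ℍ, |τ.re| ≤ h → Y ≤ τ.im → ‖g τ‖ ≤ C * (1 + τ.im) ^ m) :
    UpperHalfPlane.IsBoundedAtImInfty g := by
  have hh' : (0 : ℝ) < (h : ℝ) := by exact_mod_cast hh
  set G : ℂ → ℂ := g ∘ ofComplex with hG
  have hGper : Function.Periodic G (h : ℝ) := periodic_comp_ofComplex_of_vadd hper
  have hGdiff : ∀ z : ℂ, 0 < z.im → DifferentiableAt ℂ G z := fun z hz =>
    ((UpperHalfPlane.mdifferentiable_iff.mp hg) z hz).differentiableAt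
      (isOpen_upperHalfPlaneSet.mem_nhds hz)
  -- global polynomial bound
  have hGbd : ∀ z : ℂ, max Y 1 ≤ z.im → ‖G z‖ ≤ C * (1 + z.im) ^ m := by
    intro z hz
    have hzpos : 0 < z.im := lt_of_lt_of_le one_pos ((le_max_right _ _).trans hz)
    set n : ℤ := ⌊z.re / h⌋ with hn
    set z' : ℂ := z - n * (h : ℝ) with hz'
    have him : z'.im = z.im := by simp [hz']
    have hre : z'.re = z.re - n * h := by simp [hz']
    have hz'pos : 0 < z'.im := him ▸ hzpos
    have h1 : G z = G z' := by
      have := hGper.int_mul n z'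
      rw [← this]
      congr 1
      simp [hz']
    have h2 : G z' = g ⟨z', hz'pos⟩ := by
      simp only [hG, comp_apply, ofComplex_apply_of_im_pos hz'pos]
    have hfl1 : (n : ℝ) ≤ z.re / h := Int.floor_le _
    have hfl2 : z.re / h < n + 1 := Int.lt_floor_add_one _
    have hre0 : 0 ≤ z'.re := by
      rw [hre, sub_nonneg]
      exact (le_div_iff₀ hh').mp hfl1
    have hre1 : z'.re ≤ h := by
      rw [hre]
      have := (div_lt_iff₀ hh').mp hfl2
      linarith
    have := hbd ⟨z', hz'pos⟩ (by
      show |z'.re| ≤ h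
      rw [abs_of_nonneg hre0]; exact hre1) (by
      show Y ≤ z'.im
      rw [him]; exact (le_max_left _ _).trans hz)
    rw [h1, h2]
    refine this.trans (le_of_eq ?_)
    show C * (1 + z'.im) ^ m = _
    rw [him]
  -- the auxiliary function
  set F : ℂ → ℂ := fun z => G z * Function.Periodic.qParam h z with hF
  have hFper : Function.Periodic F (h : ℝ) := by
    intro z
    simp only [hF]
    rw [hGper z, periodic_qParam' hh'.ne' z]
  have hFhol : ∀ᶠ z in comap Complex.im atTop, DifferentiableAt ℂ F z := by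
    have : ∀ᶠ z in comap Complex.im atTop, 0 < z.im :=
      (tendsto_comap (f := Complex.im) (x := atTop)).eventually (eventually_gt_atTop 0)
    filter_upwards [this] with z hz
    exact (hGdiff z hz).mul (Function.Periodic.differentiable_qParam (h := (h : ℝ)) z)
  have hc : 0 < 2 * π / h := by positivity
  have hFzero : ZeroAtFilter (comap Complex.im atTop) F := by
    rw [ZeroAtFilter, tendsto_zero_iff_norm_tendsto_zero]
    have hφ := (tendsto_const_mul_pow_mul_exp_neg C m hc).comp
      (tendsto_comap (f := Complex.im) (x := atTop))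
    have hev : ∀ᶠ z in comap Complex.im atTop, max Y 1 ≤ z.im :=
      (tendsto_comap (f := Complex.im) (x := atTop)).eventually (eventually_ge_atTop _)
    refine squeeze_zero' (Eventually.of_forall fun _ => norm_nonneg _) ?_ hφ
    filter_upwards [hev] with z hz
    simp only [hF, comp_apply, norm_mul, Function.Periodic.norm_qParam]
    have e : Real.exp (-2 * π * z.im / h) = Real.exp (-(2 * π / h) * z.im) := by
      congr 1; ring
    rw [e]
    exact mul_le_mul_of_nonneg_right (hGbd z hz) (Real.exp_pos _).le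
  have hO := Function.Periodic.exp_decay_of_zero_at_inf hh' hFper hFhol hFzero
  obtain ⟨c, hcb⟩ := hO.bound
  rw [Filter.eventually_comap, eventually_atTop] at hcb
  obtain ⟨A, hA⟩ := hcb
  rw [UpperHalfPlane.isBoundedAtImInfty_iff]
  refine ⟨c, A, fun τ hτ => ?_⟩
  have := hA τ.im hτ (τ : ℂ) rfl
  simp only [hF, norm_mul, Function.Periodic.norm_qParam, Real.norm_eq_abs, abs_of_pos (Real.exp_pos _)] at this
  have hGτ : G τ = g τ := by simp [hG]
  rw [hGτ] at this
  exact le_of_mul_le_mul_right this (Real.exp_pos _)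

end Fermat.Agent.S22
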