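import Mathlib

/-!
# S22: periodicity of the translates `g ∣[k] δ` of a `Γ₀(N)`-invariant function

If `g : ℍ → ℂ` is invariant under the weight `k` slash action of `Γ₀(N)` then for every
`δ ∈ SL(2, ℤ)` the translate `g ∣[k] δ` is `N`-periodic.
-/

set_option autoImplicit false

namespace Fermat.Agent.S22

open UpperHalfPlane ModularForm CongruenceSubgroup
open scoped MatrixGroups

/-- `Γ(N) ≤ Γ₀(N)`. -/
theorem gamma_le_gamma0 (N : ℕ) : Gamma N ≤ Gamma0 N := by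
  intro γ hγ
  rw [Gamma_mem] at hγ
  rw [Gamma0_mem]
  exact hγ.2.2.1

/-- The conjugate of `T ^ N` by any element of `SL(2, ℤ)` lies in `Γ₀(N)`. -/
theorem conj_T_zpow_mem_gamma0 (N : ℕ) (δ : SL(2, ℤ)) :
    δ * ModularGroup.T ^ (N : ℤ) * δ⁻¹ ∈ Gamma0 N := by
  apply gamma_le_gamma0
  have h : ModularGroup.T ^ (N : ℤ) ∈ Gamma N := by
    simpa using ModularGroup_T_pow_mem_Gamma (N : ℤ) (N : ℤ) dvd_rfl
  exact (Gamma_normal N).conj_mem _ h δ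

/-- Slashing with a power of `T` is a translation. -/
theorem slash_T_zpow_apply (h : ℍ → ℂ) (k n : ℤ) (τ : ℍ) :
    (h ∣[k] (ModularGroup.T ^ n)) τ = h ((n : ℝ) +ᵥ τ) := by
  rw [SL_slash_apply, UpperHalfPlane.modular_T_zpow_smul]
  have : denom ((ModularGroup.T ^ n : SL(2, ℤ))) τ = 1 := by
    simp [denom, ModularGroup.coe_T_zpow, -map_zpow]
  rw [this, one_zpow, mul_one]

/-- (H1b) If `g` is slash-invariant under a subgroup containing the conjugate of `T ^ N` by `δ`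
then `g ∣[k] δ` is `N`-periodic. -/
theorem slash_vadd_of_conj_mem (g : ℍ → ℂ) (k : ℤ) (N : ℕ) (δ : SL(2, ℤ))
    (hg : g ∣[k] (δ * ModularGroup.T ^ (N : ℤ) * δ⁻¹) = g) (τ : ℍ) :
    (g ∣[k] δ) ((N : ℝ) +ᵥ τ) = (g ∣[k] δ) τ := by
  have h1 : (g ∣[k] δ) ∣[k] (ModularGroup.T ^ (N : ℤ)) = g ∣[k] δ := by
    rw [← SlashAction.slash_mul]
    conv_rhs => rw [← hg]
    rw [← SlashAction.slash_mul]
    congr 1
    group
  have h2 := slash_T_zpow_apply (g ∣[k] δ) k N τ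
  rw [h1] at h2
  rw [h2]
  simp

/-- (H1b) If `g` is slash-invariant under `Γ₀(N)` then `g ∣[k] δ` is `N`-periodic. -/
theorem slash_vadd_periodic (g : ℍ → ℂ) (k : ℤ) (N : ℕ) (δ : SL(2, ℤ))
    (hg : ∀ γ ∈ Gamma0 N, g ∣[k] γ = g) (τ : ℍ) :
    (g ∣[k] δ) ((N : ℝ) +ᵥ τ) = (g ∣[k] δ) τ :=
  slash_vadd_of_conj_mem g k N δ (hg _ (conj_T_zpow_mem_gamma0 N δ)) τ

/-- (H1b) for slash invariant forms (in particular modular forms and cusp forms) on `Γ₀(N)`. -/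
theorem slash_vadd_periodic_of_class {F : Type*} [FunLike F ℍ ℂ] {k : ℤ} {N : ℕ}
    [SlashInvariantFormClass F (Gamma0 N) k] (f : F) (δ : SL(2, ℤ)) (τ : ℍ) :
    ((⇑f : ℍ → ℂ) ∣[k] δ) ((N : ℝ) +ᵥ τ) = ((⇑f : ℍ → ℂ) ∣[k] δ) τ := by
  refine slash_vadd_periodic (⇑f) k N δ (fun γ hγ => ?_) τ
  exact SlashInvariantFormClass.slash_action_eq f _ (Subgroup.mem_map_of_mem _ hγ)

end Fermat.Agent.S22
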