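import Fermat.Agent.S22.Primitive

/-!
# S22: decay and holomorphy of the translates `f ∣[k] δ` of a cusp form

For a cusp form `f` on `Γ₀(N)` and `δ ∈ SL(2, ℤ)`, the function `(f ∣[k] δ) ∘ ofComplex` is
holomorphic on the upper half plane and decays exponentially at `i∞`, uniformly in the real part.
-/

set_option autoImplicit false

namespace Fermat.Agent.S22

open Complex UpperHalfPlane ModularForm Filter Asymptotics
open scoped MatrixGroups Manifold

open ConjAct Pointwise in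
/-- Conjugates of arithmetic subgroups by elements of `SL(2, ℤ)` are arithmetic. -/
theorem isArithmetic_conj_SL (Γ : Subgroup (GL (Fin 2) ℝ)) [Γ.IsArithmetic] (g : SL(2, ℤ)) :
    ((toConjAct (g : GL (Fin 2) ℝ)⁻¹) • Γ).IsArithmetic := by
  simpa [(show Rat.castHom ℝ = algebraMap ℚ ℝ by rfl), map_inv, Matrix.SpecialLinearGroup.map_mapGL]
    using! Subgroup.IsArithmetic.conj Γ (Matrix.SpecialLinearGroup.mapGL ℚ g)⁻¹

section General

variable {Γ : Subgroup (GL (Fin 2) ℝ)} [Γ.IsArithmetic] {k : ℤ}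

/-- Exponential decay at `i∞` of the translates of a cusp form. -/
theorem exists_isBigO_slash (f : CuspForm Γ k) (δ : SL(2, ℤ)) :
    ∃ c > 0, (⇑f ∣[k] δ) =O[atImInfty] fun τ ↦ Real.exp (-c * τ.im) := by
  have := isArithmetic_conj_SL Γ δ
  exact CuspFormClass.exp_decay_atImInfty' (CuspForm.translate f (δ : GL (Fin 2) ℝ))

/-- Exponential decay at `i∞` of the translates of a cusp form, explicit form. -/
theorem exists_bound_slash (f : CuspForm Γ k) (δ : SL(2, ℤ)) :
    ∃ A c Y : ℝ, 0 < c ∧ ∀ τ : ℍ, Y ≤ τ.im → ‖(⇑f ∣[k] δ) τ‖ ≤ A * Real.exp (-c * τ.im) := by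
  obtain ⟨c, hc, hO⟩ := exists_isBigO_slash f δ
  obtain ⟨A, hA⟩ := hO.bound
  rw [UpperHalfPlane.atImInfty, Filter.eventually_comap] at hA
  obtain ⟨Y, hY⟩ := Filter.eventually_atTop.mp hA
  refine ⟨A, c, Y, hc, fun τ hτ => ?_⟩
  have := hY τ.im hτ τ rfl
  rwa [Real.norm_of_nonneg (Real.exp_pos _).le] at this

/-- The translates of a cusp form decay exponentially, uniformly on vertical strips. -/
theorem sdecay_slash' (f : CuspForm Γ k) (δ : SL(2, ℤ)) :
    SDecay ((⇑f ∣[k] δ) ∘ UpperHalfPlane.ofComplex) := by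
  intro R
  obtain ⟨A, c, Y, hc, h⟩ := exists_bound_slash f δ
  refine ⟨A, c, max Y 1, hc, fun z _ hzY => ?_⟩
  have hz0 : 0 < z.im := lt_of_lt_of_le one_pos ((le_max_right _ _).trans hzY)
  have h1 : (UpperHalfPlane.ofComplex z : ℂ) = z := UpperHalfPlane.ofComplex_apply_of_im_pos hz0 ▸ rfl
  have h2 : (UpperHalfPlane.ofComplex z).im = z.im := by
    rw [← UpperHalfPlane.coe_im, h1]
  have := h (UpperHalfPlane.ofComplex z) (by rw [h2]; exact (le_max_left _ _).trans hzY)
  rwa [h2] at this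

omit [Γ.IsArithmetic] in
/-- The translates of a cusp form are holomorphic on the upper half plane. -/
theorem differentiableOn_slash' (f : CuspForm Γ k) (δ : SL(2, ℤ)) :
    DifferentiableOn ℂ ((⇑f ∣[k] δ) ∘ UpperHalfPlane.ofComplex) UH := by
  have h : MDiff (⇑f ∣[k] (δ : GL (Fin 2) ℝ)) := (ModularFormClass.holo f).slash k _
  exact UpperHalfPlane.mdifferentiable_iff.mp h

end General

section Gamma0

variable {N : ℕ} [NeZero N] {k : ℤ}

/-- (H1a) decay of `f ∣[k] δ` for `f` a cusp form on `Γ₀(N)`. -/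
theorem sdecay_slash (f : CuspForm (CongruenceSubgroup.Gamma0 N) k) (δ : SL(2, ℤ)) :
    SDecay ((⇑f ∣[k] δ) ∘ UpperHalfPlane.ofComplex) :=
  sdecay_slash' f δ

omit [NeZero N] in
/-- (H1a) holomorphy of `f ∣[k] δ` for `f` a cusp form on `Γ₀(N)`. -/
theorem differentiableOn_slash (f : CuspForm (CongruenceSubgroup.Gamma0 N) k) (δ : SL(2, ℤ)) :
    DifferentiableOn ℂ ((⇑f ∣[k] δ) ∘ UpperHalfPlane.ofComplex) UH :=
  differentiableOn_slash' f δ

end Gamma0

end Fermat.Agent.S22
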