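import Mathlib

set_option autoImplicit false

namespace Fermat.Agent.S22

open scoped Pointwise

section LemmaA

variable {V W : Type*} [AddCommGroup V] [Module ℂ V] [AddCommGroup W] [Module ℂ W]

/-- The subalgebra of pairs `(T, B)` with `B` preserving the lattice `Λ` and intertwining `ι`. -/
def pairAlg (ι : V →ₗ[ℂ] W) (Λ : Submodule ℤ W) :
    Subalgebra ℤ (Module.End ℂ V × Module.End ℂ W) where
  carrier := {p | (∀ x ∈ Λ, p.2 x ∈ Λ) ∧ ∀ f, p.2 (ι f) = ι (p.1 f)}
  mul_mem' := by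
    rintro ⟨T, B⟩ ⟨T', B'⟩ ⟨h1, h2⟩ ⟨h1', h2'⟩
    refine ⟨fun x hx => ?_, fun f => ?_⟩
    · exact h1 _ (h1' x hx)
    · show B (B' (ι f)) = ι (T (T' f))
      rw [h2', h2]
  one_mem' := ⟨fun x hx => hx, fun f => rfl⟩
  add_mem' := by
    rintro ⟨T, B⟩ ⟨T', B'⟩ ⟨h1, h2⟩ ⟨h1', h2'⟩
    refine ⟨fun x hx => ?_, fun f => ?_⟩
    · exact Λ.add_mem (h1 x hx) (h1' x hx)
    · show B (ι f) + B' (ι f) = ι (T f + T' f)
      rw [h2, h2', map_add]
  zero_mem' := ⟨fun x _ => Λ.zero_mem, fun f => by simp⟩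
  algebraMap_mem' := by
    intro r
    refine ⟨fun x hx => ?_, fun f => ?_⟩
    · have : ((algebraMap ℤ (Module.End ℂ V × Module.End ℂ W) r).2) x = r • x := by
        simp
      rw [this]
      exact Λ.smul_mem r hx
    · simp

theorem mem_pairAlg {ι : V →ₗ[ℂ] W} {Λ : Submodule ℤ W}
    {p : Module.End ℂ V × Module.End ℂ W} :
    p ∈ pairAlg ι Λ ↔ (∀ x ∈ Λ, p.2 x ∈ Λ) ∧ ∀ f, p.2 (ι f) = ι (p.1 f) := Iff.rfl

/-- Restriction of the second component to the lattice. -/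
noncomputable def pairRestrict (ι : V →ₗ[ℂ] W) (Λ : Submodule ℤ W) :
    pairAlg ι Λ →ₗ[ℤ] (Λ →ₗ[ℤ] Λ) where
  toFun p := LinearMap.restrict (p.1.2.restrictScalars ℤ) (fun x hx => p.2.1 x hx)
  map_add' _ _ := LinearMap.ext fun _ => Subtype.ext rfl
  map_smul' _ _ := LinearMap.ext fun _ => Subtype.ext rfl

/-- First projection. -/
noncomputable def pairFst (ι : V →ₗ[ℂ] W) (Λ : Submodule ℤ W) :
    pairAlg ι Λ →ₗ[ℤ] Module.End ℂ V where
  toFun p := p.1.1
  map_add' _ _ := rfl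
  map_smul' _ _ := rfl

theorem ker_pairRestrict_le (ι : V →ₗ[ℂ] W) (hι : Function.Injective ι) (Λ : Submodule ℤ W)
    (hspan : LinearMap.range ι ≤ Submodule.span ℂ (Λ : Set W)) :
    LinearMap.ker (pairRestrict ι Λ) ≤ LinearMap.ker (pairFst ι Λ) := by
  rintro ⟨⟨T, B⟩, h1, h2⟩ hp
  rw [LinearMap.mem_ker] at hp ⊢
  show T = 0
  have hB : ∀ x ∈ Λ, B x = 0 := by
    intro x hx
    have := congrArg (fun φ : Λ →ₗ[ℤ] Λ => ((φ ⟨x, hx⟩ : Λ) : W)) hp
    exact this
  have hB' : ∀ y ∈ Submodule.span ℂ (Λ : Set W), B y = 0 := by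
    intro y hy
    induction hy using Submodule.span_induction with
    | mem x hx => exact hB x hx
    | zero => simp
    | add x y _ _ hx hy => rw [map_add, hx, hy, add_zero]
    | smul a x _ hx => rw [map_smul, hx, smul_zero]
  ext f
  apply hι
  have := h2 f
  simp only at this
  rw [LinearMap.zero_apply, map_zero, ← this]
  exact hB' _ (hspan ⟨f, rfl⟩)

/-- **Abstract finiteness lemma.** If `V` embeds `ℂ`-linearly into `W`, with image inside the
`ℂ`-span of a finitely generated `ℤ`-lattice `Λ`, and every operator in `𝒯` is intertwined with an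
operator of `W` preserving `Λ`, then the `ℤ`-algebra generated by `𝒯` is a finite `ℤ`-module. -/
theorem finite_adjoin_of_lattice (ι : V →ₗ[ℂ] W) (hι : Function.Injective ι)
    (Λ : Submodule ℤ W) (hΛ : Λ.FG)
    (hspan : LinearMap.range ι ≤ Submodule.span ℂ (Λ : Set W))
    (𝒯 : Set (Module.End ℂ V))
    (hB : ∀ T ∈ 𝒯, ∃ B : Module.End ℂ W, (∀ x ∈ Λ, B x ∈ Λ) ∧ ∀ f, B (ι f) = ι (T f)) :
    Module.Finite ℤ (Algebra.adjoin ℤ 𝒯) := by
  classical
  have : Module.Finite ℤ Λ := Module.Finite.iff_fg.mpr hΛ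
  have : IsAddTorsionFree W := .of_isTorsionFree ℂ _
  have : Module.Free ℤ Λ := Module.free_of_finite_type_torsion_free'
  have : Module.Finite ℤ (Λ →ₗ[ℤ] Λ) := inferInstance
  have : IsNoetherian ℤ (Λ →ₗ[ℤ] Λ) := isNoetherian_of_isNoetherianRing_of_finite ℤ _
  set Θ := pairRestrict ι Λ with hΘ
  set Pr := pairFst ι Λ with hPr
  have hker := ker_pairRestrict_le ι hι Λ hspan
  -- the range of Θ is finitely generated
  have hfgΘ : (LinearMap.range Θ).FG := IsNoetherian.noetherian _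
  -- Pr factors through range Θ
  let Pr' : LinearMap.range Θ →ₗ[ℤ] Module.End ℂ V :=
    ((LinearMap.ker Θ).liftQ Pr hker).comp (Θ.quotKerEquivRange).symm.toLinearMap
  have hPr' : ∀ p, Pr' (Θ.rangeRestrict p) = Pr p := by
    intro p
    simp only [Pr', LinearMap.coe_comp, LinearEquiv.coe_coe, Function.comp_apply]
    have : (Θ.quotKerEquivRange).symm (Θ.rangeRestrict p) = Submodule.Quotient.mk p := by
      rw [LinearEquiv.symm_apply_eq]
      rfl
    rw [this, Submodule.liftQ_apply]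
  have hrange : LinearMap.range Pr ≤ LinearMap.range Pr' := by
    rintro _ ⟨p, rfl⟩
    exact ⟨Θ.rangeRestrict p, hPr' p⟩
  have hfgPr' : (LinearMap.range Pr').FG := by
    rw [LinearMap.range_eq_map]
    exact Submodule.FG.map _ (Module.Finite.fg_top (R := ℤ) (M := LinearMap.range Θ)
      |> fun h => h)
  have : Module.Finite ℤ (LinearMap.range Pr') := Module.Finite.iff_fg.mpr hfgPr'
  have : IsNoetherian ℤ (LinearMap.range Pr') := isNoetherian_of_isNoetherianRing_of_finite ℤ _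
  -- adjoin ≤ range Pr
  have hadj : Subalgebra.toSubmodule (Algebra.adjoin ℤ 𝒯) ≤ LinearMap.range Pr' := by
    have h1 : Algebra.adjoin ℤ 𝒯 ≤ (pairAlg ι Λ).map (AlgHom.fst ℤ _ _) := by
      refine Algebra.adjoin_le ?_
      intro T hT
      obtain ⟨B, hB1, hB2⟩ := hB T hT
      exact ⟨(T, B), ⟨hB1, hB2⟩, rfl⟩
    intro T hT
    obtain ⟨p, hp, rfl⟩ := h1 hT
    exact hrange ⟨⟨p, hp⟩, rfl⟩
  have : (Subalgebra.toSubmodule (Algebra.adjoin ℤ 𝒯)).FG := by
    have h2 : ((Subalgebra.toSubmodule (Algebra.adjoin ℤ 𝒯)).comap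
        (LinearMap.range Pr').subtype).FG := IsNoetherian.noetherian _
    have h3 := h2.map (LinearMap.range Pr').subtype
    rwa [Submodule.map_comap_eq, Submodule.range_subtype, inf_eq_right.mpr hadj] at h3
  exact Module.Finite.iff_fg.mpr this

end LemmaA

end Fermat.Agent.S22
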