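import Mathlib
import Fermat.Agent.S22.Algebra

set_option autoImplicit false

namespace Fermat.Agent.S22

section FormalEval

variable {Γ : Type*} [Group Γ] {𝔽 : Type*} [AddCommGroup 𝔽] [Module ℂ 𝔽]

/-- Formal evaluation of cocycles along words in the generators. -/
theorem exists_formal_eval (ρ : Γ →* Module.End ℂ 𝔽) (Λ₀ : Submodule ℤ 𝔽)
    (hρ : ∀ γ, ∀ x ∈ Λ₀, ρ γ x ∈ Λ₀) (S : Finset Γ)
    (hS : Subgroup.closure (S : Set Γ) = ⊤) (γ : Γ) :
    ∃ C : (S → 𝔽) →ₗ[ℂ] 𝔽, (∀ w : S → 𝔽, (∀ s, w s ∈ Λ₀) → C w ∈ Λ₀) ∧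
      ∀ u : Γ → 𝔽, (∀ a b, u (a * b) = u a + ρ a (u b)) → C (fun s : S => u s) = u γ := by
  have hγ : γ ∈ Subgroup.closure (S : Set Γ) := by rw [hS]; trivial
  have hone : ∀ u : Γ → 𝔽, (∀ a b, u (a * b) = u a + ρ a (u b)) → u 1 = 0 := by
    intro u hu
    have := hu 1 1
    rw [mul_one, map_one, Module.End.one_apply] at this
    exact left_eq_add.mp this
  induction hγ using Subgroup.closure_induction with
  | mem x hx =>
    refine ⟨LinearMap.proj ⟨x, hx⟩, fun w hw => hw _, fun u _ => rfl⟩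
  | one =>
    exact ⟨0, fun w _ => Λ₀.zero_mem, fun u hu => (hone u hu).symm⟩
  | mul x y _ _ hx hy =>
    obtain ⟨Cx, hCx1, hCx2⟩ := hx
    obtain ⟨Cy, hCy1, hCy2⟩ := hy
    refine ⟨Cx + (ρ x).comp Cy, fun w hw => ?_, fun u hu => ?_⟩
    · exact Λ₀.add_mem (hCx1 w hw) (hρ x _ (hCy1 w hw))
    · rw [LinearMap.add_apply, LinearMap.comp_apply, hCx2 u hu, hCy2 u hu, hu]
  | inv x _ hx =>
    obtain ⟨Cx, hCx1, hCx2⟩ := hx
    refine ⟨-((ρ x⁻¹).comp Cx), fun w hw => ?_, fun u hu => ?_⟩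
    · exact Λ₀.neg_mem (hρ _ _ (hCx1 w hw))
    · rw [LinearMap.neg_apply, LinearMap.comp_apply, hCx2 u hu]
      have := hu x⁻¹ x
      rw [inv_mul_cancel, hone u hu] at this
      exact (eq_neg_of_add_eq_zero_left this.symm).symm

end FormalEval

section Main

variable {Γ : Type*} [Group Γ] {𝔽 : Type*} [AddCommGroup 𝔽] [Module ℂ 𝔽]
variable {V : Type*} [AddCommGroup V] [Module ℂ V]

/-- **Abstract Eichler–Shimura finiteness.** -/
theorem finite_adjoin_of_cocycle [Group.FG Γ] (ρ : Γ →* Module.End ℂ 𝔽) (Λ₀ : Submodule ℤ 𝔽)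
    (hΛ₀ : Λ₀.FG) (hρ : ∀ γ, ∀ x ∈ Λ₀, ρ γ x ∈ Λ₀)
    (U : V →ₗ[ℂ] (Γ → 𝔽))
    (hcoc : ∀ f a b, U f (a * b) = U f a + ρ a (U f b))
    (hval : ∀ f γ, U f γ ∈ Submodule.span ℂ (Λ₀ : Set 𝔽))
    (hinj : ∀ f, (∀ γ, U f γ = 0) → f = 0)
    (𝒯 : Set (Module.End ℂ V))
    (hT : ∀ T ∈ 𝒯, ∃ (X : Type) (_ : Fintype X) (A : X → Module.End ℂ 𝔽) (g : X → Γ → Γ),
      (∀ x, ∀ y ∈ Λ₀, A x y ∈ Λ₀) ∧ ∀ f γ, U (T f) γ = ∑ x, A x (U f (g x γ))) :
    Module.Finite ℤ (Algebra.adjoin ℤ 𝒯) := by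
  classical
  obtain ⟨S, hS⟩ := Group.fg_def.mp (inferInstance : Group.FG Γ)
  choose C hC1 hC2 using exists_formal_eval ρ Λ₀ hρ S hS
  -- the embedding
  let ι : V →ₗ[ℂ] (S → 𝔽) :=
    { toFun := fun f s => U f s
      map_add' := fun f g => by ext s; simp
      map_smul' := fun c f => by ext s; simp }
  have hιC : ∀ f γ, C γ (ι f) = U f γ := fun f γ => hC2 γ (U f) (hcoc f)
  have hι : Function.Injective ι := by
    refine (injective_iff_map_eq_zero ι).mpr fun f hf => hinj f fun γ => ?_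
    rw [← hιC f γ, hf, map_zero]
  let Λ : Submodule ℤ (S → 𝔽) := Submodule.pi Set.univ fun _ => Λ₀
  have hΛmem : ∀ w : S → 𝔽, w ∈ Λ ↔ ∀ s, w s ∈ Λ₀ := fun w => by
    simp [Λ, Submodule.mem_pi]
  have hΛ : Λ.FG := Submodule.fg_pi fun _ => hΛ₀
  have hsingle : ∀ (s : S) (x : 𝔽), x ∈ Submodule.span ℂ (Λ₀ : Set 𝔽) →
      (Pi.single s x : S → 𝔽) ∈ Submodule.span ℂ (Λ : Set (S → 𝔽)) := by
    intro s x hx
    induction hx using Submodule.span_induction with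
    | mem x hx =>
      refine Submodule.subset_span ((hΛmem _).mpr fun t => ?_)
      by_cases h : t = s
      · subst h; simpa using hx
      · rw [Pi.single_eq_of_ne h]; exact Λ₀.zero_mem
    | zero => rw [Pi.single_zero]; exact Submodule.zero_mem _
    | add x y _ _ hx hy => rw [Pi.single_add]; exact Submodule.add_mem _ hx hy
    | smul a x _ hx => rw [Pi.single_smul]; exact Submodule.smul_mem _ a hx
  have hspan : LinearMap.range ι ≤ Submodule.span ℂ (Λ : Set (S → 𝔽)) := by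
    rintro _ ⟨f, rfl⟩
    have : ι f = ∑ s : S, Pi.single s (U f s) := by
      ext t
      simp [ι, Finset.sum_apply, Pi.single_apply]
    rw [this]
    exact Submodule.sum_mem _ fun s _ => hsingle s _ (hval f s)
  refine finite_adjoin_of_lattice ι hι Λ hΛ hspan 𝒯 fun T hTT => ?_
  obtain ⟨X, hX, A, g, hA, hform⟩ := hT T hTT
  let B : Module.End ℂ (S → 𝔽) :=
    LinearMap.pi fun s : S => ∑ x : X, (A x).comp (C (g x s))
  refine ⟨B, fun w hw => ?_, fun f => ?_⟩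
  · rw [hΛmem] at hw ⊢
    intro s
    simp only [B, LinearMap.pi_apply, LinearMap.sum_apply, LinearMap.comp_apply]
    exact Submodule.sum_mem _ fun x _ => hA x _ (hC1 _ w hw)
  · ext s
    simp only [B, LinearMap.pi_apply, LinearMap.sum_apply, LinearMap.comp_apply]
    simp_rw [hιC]
    exact (hform f s).symm

end Main

end Fermat.Agent.S22
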