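import Mathlib

set_option autoImplicit false

namespace Fermat.Agent.S22

open Matrix

/-- Functions on `ℂ²`. -/
abbrev PolyFun : Type := (Fin 2 → ℂ) → ℂ

/-- The monomial `v ↦ v₀ ^ j * v₁ ^ (n - j)`. -/
def mono (n j : ℕ) : PolyFun := fun v => v 0 ^ j * v 1 ^ (n - j)

/-- The `ℤ`-lattice of homogeneous polynomial functions of degree `n` with integer coefficients. -/
def polyLattice (n : ℕ) : Submodule ℤ PolyFun :=
  Submodule.span ℤ (Set.range fun j : Fin (n + 1) => mono n j)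

theorem polyLattice_fg (n : ℕ) : (polyLattice n).FG :=
  Submodule.fg_span (Set.finite_range _)

theorem mono_mem_polyLattice {n j : ℕ} (hj : j ≤ n) : mono n j ∈ polyLattice n :=
  Submodule.subset_span ⟨⟨j, Nat.lt_succ_of_le hj⟩, rfl⟩

/-- complex version of an integer matrix -/
def toC (M : Matrix (Fin 2) (Fin 2) ℤ) : Matrix (Fin 2) (Fin 2) ℂ := M.map (Int.cast : ℤ → ℂ)

theorem toC_mul (M M' : Matrix (Fin 2) (Fin 2) ℤ) : toC (M * M') = toC M * toC M' := by
  unfold toC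
  exact Matrix.map_mul (f := Int.castRingHom ℂ)

theorem toC_one : toC 1 = 1 := by
  unfold toC
  exact Matrix.map_one (Int.castRingHom ℂ) (map_zero _) (map_one _)

@[simp] theorem toC_apply (M : Matrix (Fin 2) (Fin 2) ℤ) (i j : Fin 2) :
    toC M i j = (M i j : ℂ) := rfl

/-- The action of an integer matrix on functions on `ℂ²`: `(M • P) v = P (v * M)`. -/
def act (M : Matrix (Fin 2) (Fin 2) ℤ) : Module.End ℂ PolyFun where
  toFun P := fun v => P (Matrix.vecMul v (toC M))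
  map_add' _ _ := rfl
  map_smul' _ _ := rfl

@[simp] theorem act_apply (M : Matrix (Fin 2) (Fin 2) ℤ) (P : PolyFun) (v : Fin 2 → ℂ) :
    act M P v = P (Matrix.vecMul v (toC M)) := rfl

theorem act_mul (M M' : Matrix (Fin 2) (Fin 2) ℤ) : act (M * M') = act M * act M' := by
  ext P v
  simp only [act_apply, Module.End.mul_apply, toC_mul, Matrix.vecMul_vecMul]

theorem act_one : act 1 = 1 := by
  ext P v
  simp [toC_one]

theorem vecMul_toC_zero (M : Matrix (Fin 2) (Fin 2) ℤ) (v : Fin 2 → ℂ) :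
    Matrix.vecMul v (toC M) 0 = (M 0 0 : ℂ) * v 0 + (M 1 0 : ℂ) * v 1 := by
  simp [Matrix.vecMul, dotProduct, Fin.sum_univ_two, mul_comm]

theorem vecMul_toC_one (M : Matrix (Fin 2) (Fin 2) ℤ) (v : Fin 2 → ℂ) :
    Matrix.vecMul v (toC M) 1 = (M 0 1 : ℂ) * v 0 + (M 1 1 : ℂ) * v 1 := by
  simp [Matrix.vecMul, dotProduct, Fin.sum_univ_two, mul_comm]

/-- multiplication by an integral linear form raises the degree by one -/
theorem mul_lin_mem (a b : ℤ) {m : ℕ} {P : PolyFun} (hP : P ∈ polyLattice m) :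
    (fun v => ((a : ℂ) * v 0 + (b : ℂ) * v 1) * P v) ∈ polyLattice (m + 1) := by
  let L : PolyFun →ₗ[ℤ] PolyFun :=
    { toFun := fun P v => ((a : ℂ) * v 0 + (b : ℂ) * v 1) * P v
      map_add' := fun P Q => by ext v; simp [mul_add]
      map_smul' := fun c P => by ext v; simp; ring }
  suffices h : polyLattice m ≤ (polyLattice (m + 1)).comap L from h hP
  unfold polyLattice
  rw [Submodule.span_le]
  rintro _ ⟨j, rfl⟩
  show L (mono m j) ∈ polyLattice (m + 1)
  have hj : (j : ℕ) ≤ m := Nat.lt_succ_iff.mp j.2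
  have : L (mono m j) = a • mono (m + 1) (j + 1) + b • mono (m + 1) j := by
    ext v
    rw [Pi.add_apply, Pi.smul_apply, Pi.smul_apply, zsmul_eq_mul, zsmul_eq_mul]
    simp only [L, LinearMap.coe_mk, AddHom.coe_mk, mono]
    have h1 : m + 1 - (j + 1) = m - j := by omega
    have h2 : m + 1 - j = (m - j) + 1 := by omega
    rw [h1, h2, pow_succ, pow_succ]
    ring
  rw [this]
  exact Submodule.add_mem _ (Submodule.smul_mem _ _ (mono_mem_polyLattice (by omega)))
    (Submodule.smul_mem _ _ (mono_mem_polyLattice (by omega)))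

theorem one_mem_polyLattice_zero : (fun _ => (1 : ℂ)) ∈ polyLattice 0 := by
  have : (fun _ => (1 : ℂ) : PolyFun) = mono 0 0 := by
    ext v; simp [mono]
  rw [this]
  exact mono_mem_polyLattice le_rfl

theorem lin_pow_mem (a b : ℤ) (j : ℕ) :
    (fun v => ((a : ℂ) * v 0 + (b : ℂ) * v 1) ^ j : PolyFun) ∈ polyLattice j := by
  induction j with
  | zero => simpa using one_mem_polyLattice_zero
  | succ j ih =>
    have := mul_lin_mem a b ih
    convert this using 2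
    rw [pow_succ, mul_comm]

theorem lin_pow_mul_lin_pow_mem (a b c d : ℤ) (i j : ℕ) :
    (fun v => ((a : ℂ) * v 0 + (b : ℂ) * v 1) ^ i * ((c : ℂ) * v 0 + (d : ℂ) * v 1) ^ j :
      PolyFun) ∈ polyLattice (i + j) := by
  induction i with
  | zero => simpa using lin_pow_mem c d j
  | succ i ih =>
    have := mul_lin_mem a b ih
    rw [show i + 1 + j = i + j + 1 by omega]
    convert this using 2
    rw [pow_succ]
    ring

theorem act_mono_mem (M : Matrix (Fin 2) (Fin 2) ℤ) {n j : ℕ} (hj : j ≤ n) :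
    act M (mono n j) ∈ polyLattice n := by
  have := lin_pow_mul_lin_pow_mem (M 0 0) (M 1 0) (M 0 1) (M 1 1) j (n - j)
  rw [show j + (n - j) = n by omega] at this
  convert this using 2
  rename_i v
  simp only [act_apply, mono, vecMul_toC_zero, vecMul_toC_one]

theorem act_mem_polyLattice (M : Matrix (Fin 2) (Fin 2) ℤ) {n : ℕ} {P : PolyFun}
    (hP : P ∈ polyLattice n) : act M P ∈ polyLattice n := by
  suffices h : polyLattice n ≤ (polyLattice n).comap ((act M).restrictScalars ℤ) from h hP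
  unfold polyLattice
  rw [Submodule.span_le]
  rintro _ ⟨j, rfl⟩
  exact act_mono_mem M (Nat.lt_succ_iff.mp j.2)

/-- The complex span of the lattice. -/
def polySpace (n : ℕ) : Submodule ℂ PolyFun := Submodule.span ℂ (polyLattice n : Set PolyFun)

theorem mono_mem_polySpace {n j : ℕ} (hj : j ≤ n) : mono n j ∈ polySpace n :=
  Submodule.subset_span (mono_mem_polyLattice hj)

theorem act_mem_polySpace (M : Matrix (Fin 2) (Fin 2) ℤ) {n : ℕ} {P : PolyFun}
    (hP : P ∈ polySpace n) : act M P ∈ polySpace n := by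
  suffices h : polySpace n ≤ (polySpace n).comap (act M) from h hP
  unfold polySpace
  rw [Submodule.span_le]
  intro Q hQ
  exact Submodule.subset_span (act_mem_polyLattice M hQ)

/-- homogeneity -/
theorem polySpace_homogeneous {n : ℕ} {P : PolyFun} (hP : P ∈ polySpace n) (c : ℂ)
    (v : Fin 2 → ℂ) : P (c • v) = c ^ n * P v := by
  have hmono : ∀ j, j ≤ n → mono n j (c • v) = c ^ n * mono n j v := by
    intro j hj
    simp only [mono, Pi.smul_apply, smul_eq_mul, mul_pow]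
    have : c ^ n = c ^ j * c ^ (n - j) := by rw [← pow_add]; congr 1; omega
    rw [this]; ring
  have hΛ : ∀ Q ∈ polyLattice n, Q (c • v) = c ^ n * Q v := by
    intro Q hQ
    induction hQ using Submodule.span_induction with
    | mem x hx =>
      obtain ⟨j, rfl⟩ := hx
      exact hmono j (Nat.lt_succ_iff.mp j.2)
    | zero => simp
    | add x y _ _ hx hy => simp only [Pi.add_apply, hx, hy]; ring
    | smul a x _ hx => simp only [Pi.smul_apply, hx, zsmul_eq_mul]; ring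
  induction hP using Submodule.span_induction with
  | mem x hx => exact hΛ x hx
  | zero => simp
  | add x y _ _ hx hy => simp only [Pi.add_apply, hx, hy]; ring
  | smul a x _ hx => simp only [Pi.smul_apply, hx, smul_eq_mul]; ring

/-- growth bound -/
theorem polySpace_bound {n : ℕ} {P : PolyFun} (hP : P ∈ polySpace n) :
    ∃ C : ℝ, 0 ≤ C ∧ ∀ v : Fin 2 → ℂ, ‖P v‖ ≤ C * (‖v 0‖ + ‖v 1‖) ^ n := by
  have hmono : ∀ j, j ≤ n → ∀ v : Fin 2 → ℂ, ‖mono n j v‖ ≤ 1 * (‖v 0‖ + ‖v 1‖) ^ n := by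
    intro j hj v
    simp only [mono, norm_mul, norm_pow, one_mul]
    have h0 : ‖v 0‖ ≤ ‖v 0‖ + ‖v 1‖ := by linarith [norm_nonneg (v 1)]
    have h1 : ‖v 1‖ ≤ ‖v 0‖ + ‖v 1‖ := by linarith [norm_nonneg (v 0)]
    calc ‖v 0‖ ^ j * ‖v 1‖ ^ (n - j)
        ≤ (‖v 0‖ + ‖v 1‖) ^ j * (‖v 0‖ + ‖v 1‖) ^ (n - j) := by gcongr
      _ = (‖v 0‖ + ‖v 1‖) ^ n := by rw [← pow_add]; congr 1; omega
  have hΛ : ∀ Q ∈ polyLattice n,
      ∃ C : ℝ, 0 ≤ C ∧ ∀ v : Fin 2 → ℂ, ‖Q v‖ ≤ C * (‖v 0‖ + ‖v 1‖) ^ n := by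
    intro Q hQ
    induction hQ using Submodule.span_induction with
    | mem x hx =>
      obtain ⟨j, rfl⟩ := hx
      exact ⟨1, zero_le_one, hmono j (Nat.lt_succ_iff.mp j.2)⟩
    | zero => exact ⟨0, le_rfl, fun v => by simp⟩
    | add x y _ _ hx hy =>
      obtain ⟨C, hC0, hC⟩ := hx
      obtain ⟨D, hD0, hD⟩ := hy
      refine ⟨C + D, add_nonneg hC0 hD0, fun v => ?_⟩
      calc ‖(x + y) v‖ ≤ ‖x v‖ + ‖y v‖ := norm_add_le _ _
        _ ≤ C * (‖v 0‖ + ‖v 1‖) ^ n + D * (‖v 0‖ + ‖v 1‖) ^ n := add_le_add (hC v) (hD v)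
        _ = (C + D) * (‖v 0‖ + ‖v 1‖) ^ n := by ring
    | smul a x _ hx =>
      obtain ⟨C, hC0, hC⟩ := hx
      refine ⟨‖(a : ℂ)‖ * C, mul_nonneg (norm_nonneg _) hC0, fun v => ?_⟩
      calc ‖(a • x) v‖ = ‖(a : ℂ)‖ * ‖x v‖ := by simp [zsmul_eq_mul]
        _ ≤ ‖(a : ℂ)‖ * (C * (‖v 0‖ + ‖v 1‖) ^ n) := by gcongr; exact hC v
        _ = ‖(a : ℂ)‖ * C * (‖v 0‖ + ‖v 1‖) ^ n := by ring
  induction hP using Submodule.span_induction with
  | mem x hx => exact hΛ x hx
  | zero => exact ⟨0, le_rfl, fun v => by simp⟩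
  | add x y _ _ hx hy =>
    obtain ⟨C, hC0, hC⟩ := hx
    obtain ⟨D, hD0, hD⟩ := hy
    refine ⟨C + D, add_nonneg hC0 hD0, fun v => ?_⟩
    calc ‖(x + y) v‖ ≤ ‖x v‖ + ‖y v‖ := norm_add_le _ _
      _ ≤ C * (‖v 0‖ + ‖v 1‖) ^ n + D * (‖v 0‖ + ‖v 1‖) ^ n := add_le_add (hC v) (hD v)
      _ = (C + D) * (‖v 0‖ + ‖v 1‖) ^ n := by ring
  | smul a x _ hx =>
    obtain ⟨C, hC0, hC⟩ := hx
    refine ⟨‖a‖ * C, mul_nonneg (norm_nonneg _) hC0, fun v => ?_⟩
    calc ‖(a • x) v‖ = ‖a‖ * ‖x v‖ := by simp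
      _ ≤ ‖a‖ * (C * (‖v 0‖ + ‖v 1‖) ^ n) := by gcongr; exact hC v
      _ = ‖a‖ * C * (‖v 0‖ + ‖v 1‖) ^ n := by ring

end Fermat.Agent.S22
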