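import Mathlib

set_option autoImplicit false

namespace Fermat.Agent.S22

open Complex MeasureTheory Set Filter Topology

/-- The open upper half plane as a subset of `ℂ`. -/
def UH : Set ℂ := {z | 0 < z.im}

theorem mem_UH {z : ℂ} : z ∈ UH ↔ 0 < z.im := Iff.rfl

theorem isOpen_UH : IsOpen UH := isOpen_lt continuous_const Complex.continuous_im

theorem convex_UH : Convex ℝ UH := convex_halfSpace_im_gt 0

theorem isPreconnected_UH : IsPreconnected UH := convex_UH.isPreconnected

theorem I_mem_UH : Complex.I ∈ UH := by simp [UH]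

section Exhaustion

/-- The exhausting balls. -/
def exBall (m : ℕ) : Set ℂ := Metric.ball (((m : ℝ) + 1) * Complex.I) ((m : ℝ) + 1)

theorem mem_exBall {m : ℕ} {z : ℂ} : z ∈ exBall m ↔ Complex.normSq z < 2 * ((m : ℝ) + 1) * z.im := by
  have hpos : (0 : ℝ) < (m : ℝ) + 1 := by positivity
  rw [exBall, Metric.mem_ball, Complex.dist_eq, ← sq_lt_sq₀ (norm_nonneg _) hpos.le,
    Complex.sq_norm, Complex.normSq_apply, Complex.normSq_apply]
  simp only [Complex.sub_re, Complex.sub_im, Complex.mul_re, Complex.mul_im, Complex.I_re,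
    Complex.I_im, Complex.add_re, Complex.add_im, Complex.ofReal_re, Complex.ofReal_im,
    Complex.one_re, Complex.one_im]
  constructor <;> intro h <;> nlinarith

theorem exBall_subset_UH (m : ℕ) : exBall m ⊆ UH := by
  intro z hz
  rw [mem_exBall] at hz
  have hpos : (0 : ℝ) < (m : ℝ) + 1 := by positivity
  have := Complex.normSq_nonneg z
  rw [mem_UH]
  by_contra h
  rw [not_lt] at h
  nlinarith

theorem exBall_mono {m m' : ℕ} (h : m ≤ m') : exBall m ⊆ exBall m' := by
  intro z hz
  have hz' := exBall_subset_UH m hz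
  rw [mem_UH] at hz'
  rw [mem_exBall] at hz ⊢
  have : (m : ℝ) ≤ m' := by exact_mod_cast h
  nlinarith

theorem I_mem_exBall (m : ℕ) : Complex.I ∈ exBall m := by
  rw [mem_exBall]
  simp
  have : (0 : ℝ) ≤ m := by positivity
  linarith

theorem exists_mem_exBall {z : ℂ} (hz : z ∈ UH) : ∃ m : ℕ, z ∈ exBall m := by
  rw [mem_UH] at hz
  obtain ⟨m, hm⟩ := exists_nat_gt (Complex.normSq z / (2 * z.im))
  refine ⟨m, ?_⟩
  rw [mem_exBall]
  rw [div_lt_iff₀ (by positivity)] at hm
  nlinarith

/-- A holomorphic function on the upper half plane has a primitive. -/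
theorem exists_primitive_UH {F : ℂ → ℂ} (hF : DifferentiableOn ℂ F UH) :
    ∃ G : ℂ → ℂ, ∀ z ∈ UH, HasDerivAt G (F z) z := by
  classical
  have h1 : ∀ m : ℕ, ∃ g : ℂ → ℂ, g Complex.I = 0 ∧ ∀ x ∈ exBall m, HasDerivAt g (F x) x := by
    intro m
    have := (hF.mono (exBall_subset_UH m)).isExactOn_ball
    exact this.with_val_at Complex.I 0
  choose g hg0 hg using h1
  have hopen : ∀ m, IsOpen (exBall m) := fun m => Metric.isOpen_ball
  have hconn : ∀ m, IsPreconnected (exBall m) := fun m => (convex_ball _ _).isPreconnected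
  have hdiff : ∀ m m', m ≤ m' → DifferentiableOn ℂ (g m') (exBall m) := fun m m' h z hz =>
    (hg m' z (exBall_mono h hz)).differentiableAt.differentiableWithinAt
  have heq : ∀ m m', m ≤ m' → EqOn (g m) (g m') (exBall m) := by
    intro m m' h
    refine (hopen m).eqOn_of_deriv_eq (hconn m) (hdiff m m le_rfl) (hdiff m m' h) ?_
      (I_mem_exBall m) ((hg0 m).trans (hg0 m').symm)
    intro z hz
    rw [(hg m z hz).deriv, (hg m' z (exBall_mono h hz)).deriv]
  -- index function
  have hex : ∀ z : ℂ, ∃ m : ℕ, z ∈ UH → z ∈ exBall m := by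
    intro z
    by_cases hz : z ∈ UH
    · obtain ⟨m, hm⟩ := exists_mem_exBall hz
      exact ⟨m, fun _ => hm⟩
    · exact ⟨0, fun h => absurd h hz⟩
  choose idx hidx using hex
  refine ⟨fun z => g (idx z) z, fun z hz => ?_⟩
  have hz' := hidx z hz
  refine (hg (idx z) z hz').congr_of_eventuallyEq ?_
  filter_upwards [(hopen (idx z)).mem_nhds hz'] with w hw
  have hwU : w ∈ UH := exBall_subset_UH _ hw
  have hw' := hidx w hwU
  rcases le_total (idx w) (idx z) with h | h
  · exact heq _ _ h hw'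
  · exact (heq _ _ h hw).symm

end Exhaustion

section Decay

/-- Strip-uniform exponential decay as `im z → ∞`. -/
def SDecay (F : ℂ → ℂ) : Prop :=
  ∀ R : ℝ, ∃ A c Y : ℝ, 0 < c ∧ ∀ z : ℂ, |z.re| ≤ R → Y ≤ z.im →
    ‖F z‖ ≤ A * Real.exp (-c * z.im)

/-- Normalised form of the decay: nonnegative constant, threshold at least one. -/
theorem SDecay.exists_good {F : ℂ → ℂ} (hF : SDecay F) (R : ℝ) :
    ∃ A c Y : ℝ, 0 ≤ A ∧ 0 < c ∧ 1 ≤ Y ∧ ∀ z : ℂ, |z.re| ≤ R → Y ≤ z.im →
      ‖F z‖ ≤ A * Real.exp (-c * z.im) := by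
  obtain ⟨A, c, Y, hc, h⟩ := hF R
  refine ⟨|A|, c, max Y 1, abs_nonneg _, hc, le_max_right _ _, fun z hz hY => ?_⟩
  refine (h z hz ((le_max_left _ _).trans hY)).trans ?_
  exact mul_le_mul_of_nonneg_right (le_abs_self A) (Real.exp_pos _).le

theorem SDecay.add {F G : ℂ → ℂ} (hF : SDecay F) (hG : SDecay G) : SDecay (F + G) := by
  intro R
  obtain ⟨A, c, Y, hA, hc, hY, h⟩ := hF.exists_good R
  obtain ⟨A', c', Y', hA', hc', hY', h'⟩ := hG.exists_good R
  refine ⟨A + A', min c c', max Y Y', lt_min hc hc', fun z hz hzY => ?_⟩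
  have hz0 : 0 ≤ z.im := by linarith [le_max_left Y Y']
  have e1 : Real.exp (-c * z.im) ≤ Real.exp (-(min c c') * z.im) := by
    apply Real.exp_le_exp.mpr
    have : min c c' ≤ c := min_le_left _ _
    nlinarith
  have e2 : Real.exp (-c' * z.im) ≤ Real.exp (-(min c c') * z.im) := by
    apply Real.exp_le_exp.mpr
    have : min c c' ≤ c' := min_le_right _ _
    nlinarith
  calc ‖(F + G) z‖ ≤ ‖F z‖ + ‖G z‖ := norm_add_le _ _
    _ ≤ A * Real.exp (-c * z.im) + A' * Real.exp (-c' * z.im) :=
        add_le_add (h z hz ((le_max_left _ _).trans hzY)) (h' z hz ((le_max_right _ _).trans hzY))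
    _ ≤ A * Real.exp (-(min c c') * z.im) + A' * Real.exp (-(min c c') * z.im) := by gcongr
    _ = (A + A') * Real.exp (-(min c c') * z.im) := by ring

theorem SDecay.const_mul {F : ℂ → ℂ} (hF : SDecay F) (a : ℂ) : SDecay (fun z => a * F z) := by
  intro R
  obtain ⟨A, c, Y, hA, hc, hY, h⟩ := hF.exists_good R
  refine ⟨‖a‖ * A, c, Y, hc, fun z hz hzY => ?_⟩
  rw [norm_mul, mul_assoc]
  exact mul_le_mul_of_nonneg_left (h z hz hzY) (norm_nonneg _)

theorem SDecay.zero : SDecay (fun _ => (0 : ℂ)) := by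
  intro R
  exact ⟨0, 1, 0, one_pos, fun z _ _ => by simp⟩

theorem SDecay.sum {ι : Type*} (s : Finset ι) {F : ι → ℂ → ℂ} (hF : ∀ i ∈ s, SDecay (F i)) :
    SDecay (fun z => ∑ i ∈ s, F i z) := by
  classical
  induction s using Finset.induction_on with
  | empty => simpa using SDecay.zero
  | insert a s ha ih =>
    have h1 := hF a (Finset.mem_insert_self a s)
    have h2 := ih fun i hi => hF i (Finset.mem_insert_of_mem hi)
    have := h1.add h2
    convert this using 1
    ext z
    simp [Finset.sum_insert ha]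

/-- polynomial growth is absorbed by exponential decay -/
theorem exists_pow_mul_exp_le (n : ℕ) {c : ℝ} (hc : 0 < c) :
    ∃ C : ℝ, 0 ≤ C ∧ ∀ y : ℝ, 0 ≤ y → (1 + y) ^ n * Real.exp (-c * y) ≤ C * Real.exp (-(c / 2) * y) := by
  refine ⟨(n.factorial : ℝ) * (2 / c) ^ n * Real.exp (c / 2), by positivity, fun y hy => ?_⟩
  have h1 := Real.pow_div_factorial_le_exp (x := (c / 2) * (1 + y)) (by positivity) n
  have hfact : (0 : ℝ) < n.factorial := by positivity
  rw [div_le_iff₀ hfact] at h1
  have h2 : (1 + y) ^ n = (2 / c) ^ n * ((c / 2) * (1 + y)) ^ n := by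
    rw [← mul_pow]
    congr 1
    field_simp
  have h3 : Real.exp (c / 2 * (1 + y)) * Real.exp (-c * y) = Real.exp (c / 2) * Real.exp (-(c / 2) * y) := by
    rw [← Real.exp_add, ← Real.exp_add]
    congr 1
    ring
  calc (1 + y) ^ n * Real.exp (-c * y)
      = (2 / c) ^ n * ((c / 2) * (1 + y)) ^ n * Real.exp (-c * y) := by rw [h2]
    _ ≤ (2 / c) ^ n * (Real.exp (c / 2 * (1 + y)) * n.factorial) * Real.exp (-c * y) := by
        gcongr
    _ = (2 / c) ^ n * n.factorial * (Real.exp (c / 2 * (1 + y)) * Real.exp (-c * y)) := by ring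
    _ = (n.factorial : ℝ) * (2 / c) ^ n * Real.exp (c / 2) * Real.exp (-(c / 2) * y) := by
        rw [h3]; ring

/-- multiplication by a function of polynomial growth on strips preserves decay -/
theorem SDecay.mul_poly {F P : ℂ → ℂ} (hF : SDecay F) (n : ℕ)
    (hP : ∀ R : ℝ, ∃ K : ℝ, ∀ z : ℂ, |z.re| ≤ R → 1 ≤ z.im → ‖P z‖ ≤ K * (1 + z.im) ^ n) :
    SDecay (fun z => F z * P z) := by
  intro R
  obtain ⟨A, c, Y, hA, hc, hY, h⟩ := hF.exists_good R
  obtain ⟨K, hK⟩ := hP R
  obtain ⟨C, hC0, hC⟩ := exists_pow_mul_exp_le n hc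
  refine ⟨A * |K| * C, c / 2, Y, by positivity, fun z hz hzY => ?_⟩
  have hz1 : 1 ≤ z.im := hY.trans hzY
  have hz0 : 0 ≤ z.im := by linarith
  have hP' : ‖P z‖ ≤ |K| * (1 + z.im) ^ n :=
    (hK z hz hz1).trans (mul_le_mul_of_nonneg_right (le_abs_self K) (by positivity))
  calc ‖F z * P z‖ = ‖F z‖ * ‖P z‖ := norm_mul _ _
    _ ≤ (A * Real.exp (-c * z.im)) * (|K| * (1 + z.im) ^ n) :=
        mul_le_mul (h z hz hzY) hP' (norm_nonneg _) (by positivity)
    _ = A * |K| * ((1 + z.im) ^ n * Real.exp (-c * z.im)) := by ring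
    _ ≤ A * |K| * (C * Real.exp (-(c / 2) * z.im)) :=
        mul_le_mul_of_nonneg_left (hC z.im hz0) (by positivity)
    _ = A * |K| * C * Real.exp (-(c / 2) * z.im) := by ring

end Decay

section Prim

/-- The normalised primitive: minus the integral along the vertical ray from `z` to `i∞`. -/
noncomputable def prim (F : ℂ → ℂ) (z : ℂ) : ℂ :=
  -(Complex.I * ∫ t in Ioi (0 : ℝ), F (z + t * Complex.I))

theorem ray_im (z : ℂ) (t : ℝ) : (z + t * Complex.I).im = z.im + t := by simp

theorem ray_re (z : ℂ) (t : ℝ) : (z + t * Complex.I).re = z.re := by simp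

theorem ray_mem_UH {z : ℂ} (hz : z ∈ UH) {t : ℝ} (ht : 0 ≤ t) : z + t * Complex.I ∈ UH := by
  rw [mem_UH, ray_im]
  rw [mem_UH] at hz
  linarith

theorem continuous_ray (z : ℂ) : Continuous fun t : ℝ => z + t * Complex.I := by fun_prop

theorem integrableOn_ray {F : ℂ → ℂ} (hF : ContinuousOn F UH) (hd : SDecay F) {z : ℂ}
    (hz : z ∈ UH) : IntegrableOn (fun t : ℝ => F (z + t * Complex.I)) (Ioi 0) := by
  obtain ⟨A, c, Y, hA, hc, hY, h⟩ := hd.exists_good |z.re|
  have hcont : ContinuousOn (fun t : ℝ => F (z + t * Complex.I)) (Ici 0) := by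
    refine hF.comp (continuous_ray z).continuousOn fun t ht => ray_mem_UH hz ht
  have hO : (fun t : ℝ => F (z + t * Complex.I)) =O[atTop] fun t : ℝ => Real.exp (-c * t) := by
    refine Asymptotics.IsBigO.of_bound (A * Real.exp (-c * z.im)) ?_
    filter_upwards [eventually_ge_atTop (Y - z.im)] with t ht
    have := h (z + t * Complex.I) (by rw [ray_re]) (by rw [ray_im]; linarith)
    rw [ray_im] at this
    rw [Real.norm_of_nonneg (Real.exp_pos _).le]
    calc ‖F (z + t * Complex.I)‖ ≤ A * Real.exp (-c * (z.im + t)) := this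
      _ = A * Real.exp (-c * z.im) * Real.exp (-c * t) := by
          rw [mul_assoc, ← Real.exp_add]; congr 2; ring
  have := (hcont.locallyIntegrableOn measurableSet_Ici).integrableOn_of_isBigO_atTop hO
    ⟨Ioi 1, Ioi_mem_atTop 1, exp_neg_integrableOn_Ioi 1 hc⟩
  exact this.mono_set Ioi_subset_Ici_self

theorem norm_prim_le {F : ℂ → ℂ} {A c Y R : ℝ} (hc : 0 < c)
    (h : ∀ z : ℂ, |z.re| ≤ R → Y ≤ z.im → ‖F z‖ ≤ A * Real.exp (-c * z.im))
    {z : ℂ} (hzR : |z.re| ≤ R) (hzY : Y ≤ z.im) :
    ‖prim F z‖ ≤ A / c * Real.exp (-c * z.im) := by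
  unfold prim
  rw [norm_neg, norm_mul, Complex.norm_I, one_mul]
  have hg : IntegrableOn (fun t : ℝ => A * Real.exp (-c * z.im) * Real.exp (-c * t)) (Ioi 0) :=
    (exp_neg_integrableOn_Ioi 0 hc).const_mul _
  have hbound : ∀ᵐ (t : ℝ) ∂(volume.restrict (Ioi (0 : ℝ))),
      ‖F (z + (t : ℂ) * Complex.I)‖ ≤ A * Real.exp (-c * z.im) * Real.exp (-c * t) := by
    filter_upwards [ae_restrict_mem measurableSet_Ioi] with t ht
    have ht0 : 0 ≤ t := le_of_lt ht
    have := h (z + t * Complex.I) (by rw [ray_re]; exact hzR) (by rw [ray_im]; linarith)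
    rw [ray_im] at this
    calc ‖F (z + t * Complex.I)‖ ≤ A * Real.exp (-c * (z.im + t)) := this
      _ = A * Real.exp (-c * z.im) * Real.exp (-c * t) := by
          rw [mul_assoc, ← Real.exp_add]; congr 2; ring
  refine (norm_integral_le_of_norm_le hg hbound).trans (le_of_eq ?_)
  rw [MeasureTheory.integral_const_mul, _root_.integral_exp_mul_Ioi (by linarith : -c < 0) 0]
  simp only [mul_zero, Real.exp_zero]
  field_simp

theorem SDecay.prim {F : ℂ → ℂ} (hd : SDecay F) : SDecay (prim F) := by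
  intro R
  obtain ⟨A, c, Y, hA, hc, hY, h⟩ := hd.exists_good R
  exact ⟨A / c, c, Y, hc, fun z hz hzY => norm_prim_le hc h hz hzY⟩

theorem hasDerivAt_ray {G : ℂ → ℂ} {F : ℂ → ℂ} (hG : ∀ z ∈ UH, HasDerivAt G (F z) z) {z : ℂ}
    (hz : z ∈ UH) {t : ℝ} (ht : 0 ≤ t) :
    HasDerivAt (fun t : ℝ => G (z + t * Complex.I)) (Complex.I * F (z + t * Complex.I)) t := by
  have h1 : HasDerivAt (fun t : ℝ => z + (t : ℂ) * Complex.I) Complex.I t := by
    have := ((Complex.ofRealCLM.hasDerivAt (x := t)).mul_const Complex.I).const_add z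
    simpa using this
  have := (hG _ (ray_mem_UH hz ht)).scomp t h1
  simpa [Function.comp_def, smul_eq_mul] using this

theorem tendsto_primitive_ray {G : ℂ → ℂ} {F : ℂ → ℂ} (hF : ContinuousOn F UH) (hd : SDecay F)
    (hG : ∀ z ∈ UH, HasDerivAt G (F z) z) {z : ℂ} (hz : z ∈ UH) :
    Tendsto (fun T : ℝ => G (z + T * Complex.I)) atTop (𝓝 (G z - prim F z)) := by
  have hint := integrableOn_ray hF hd hz
  have h1 := intervalIntegral_tendsto_integral_Ioi 0 hint tendsto_id
  have h2 : Tendsto (fun T : ℝ => G z + Complex.I * ∫ t in (0 : ℝ)..T, F (z + t * Complex.I))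
      atTop (𝓝 (G z - prim F z)) := by
    have := (h1.const_mul Complex.I).const_add (G z)
    have e : G z - prim F z = G z + Complex.I * ∫ t in Ioi (0 : ℝ), F (z + t * Complex.I) := by
      simp [prim, sub_eq_add_neg]
    rw [e]
    exact this
  refine h2.congr' ?_
  filter_upwards [eventually_ge_atTop (0 : ℝ)] with T hT
  have hderiv : ∀ t ∈ Set.uIcc (0 : ℝ) T,
      HasDerivAt (fun t : ℝ => G (z + t * Complex.I)) (Complex.I * F (z + t * Complex.I)) t := by
    intro t ht
    rw [Set.uIcc_of_le hT] at ht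
    exact hasDerivAt_ray hG hz ht.1
  have hii : IntervalIntegrable (fun t : ℝ => Complex.I * F (z + t * Complex.I)) volume 0 T := by
    refine ContinuousOn.intervalIntegrable ?_
    rw [Set.uIcc_of_le hT]
    refine continuousOn_const.mul ?_
    exact hF.comp (continuous_ray z).continuousOn fun t ht => ray_mem_UH hz ht.1
  have := intervalIntegral.integral_eq_sub_of_hasDerivAt hderiv hii
  rw [intervalIntegral.integral_const_mul] at this
  rw [this]
  simp

theorem hasDerivAt_prim {F : ℂ → ℂ} (hF : DifferentiableOn ℂ F UH) (hd : SDecay F) {z₀ : ℂ}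
    (hz₀ : z₀ ∈ UH) : HasDerivAt (prim F) (F z₀) z₀ := by
  obtain ⟨G, hG⟩ := exists_primitive_UH hF
  have hFc : ContinuousOn F UH := hF.continuousOn
  have hy₀ : 0 < z₀.im := hz₀
  set r : ℝ := z₀.im / 2 with hr
  have hr0 : 0 < r := by positivity
  have hball : ∀ z ∈ Metric.ball z₀ r, z ∈ UH ∧ |z.re| ≤ |z₀.re| + r ∧ r ≤ z.im := by
    intro z hz
    rw [Metric.mem_ball, Complex.dist_eq] at hz
    have h1 : |(z - z₀).re| ≤ ‖z - z₀‖ := Complex.abs_re_le_norm _
    have h2 : |(z - z₀).im| ≤ ‖z - z₀‖ := Complex.abs_im_le_norm _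
    rw [Complex.sub_re] at h1
    rw [Complex.sub_im] at h2
    have h3 := abs_le.mp (h1.trans hz.le)
    have h4 := abs_le.mp (h2.trans hz.le)
    have him : r ≤ z.im := by linarith
    refine ⟨?_, ?_, him⟩
    · rw [mem_UH]; linarith
    · have : z.re = z₀.re + (z.re - z₀.re) := by ring
      rw [this]
      exact (abs_add_le _ _).trans (add_le_add le_rfl (h1.trans hz.le))
  obtain ⟨A, c, Y, hA, hc, hY, h⟩ := hd.exists_good (|z₀.re| + r)
  -- the limit is locally constant
  have hconst : ∀ z ∈ Metric.ball z₀ r, G z - prim F z = G z₀ - prim F z₀ := by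
    intro z hz
    have hzU := (hball z hz).1
    have t1 := tendsto_primitive_ray hFc hd hG hzU
    have t2 := tendsto_primitive_ray hFc hd hG hz₀
    have t3 := t1.sub t2
    have t4 : Tendsto (fun T : ℝ => G (z + T * Complex.I) - G (z₀ + T * Complex.I)) atTop
        (𝓝 0) := by
      rw [tendsto_zero_iff_norm_tendsto_zero]
      have hlim : Tendsto (fun T : ℝ => A * Real.exp (-c * T) * r) atTop (𝓝 0) := by
        have : Tendsto (fun T : ℝ => Real.exp (-c * T)) atTop (𝓝 0) := by
          have := Real.tendsto_exp_atBot.comp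
            (tendsto_id.const_mul_atTop_of_neg (by linarith : -c < 0))
          simpa [Function.comp_def] using this
        simpa using (this.const_mul A).mul_const r
      refine squeeze_zero' (Eventually.of_forall fun _ => norm_nonneg _) ?_ hlim
      filter_upwards [eventually_ge_atTop Y, eventually_ge_atTop (0 : ℝ)] with T hTY hT0
      -- mean value inequality on the translated ball
      set s : Set ℂ := Metric.ball (z₀ + T * Complex.I) r with hs
      have hsub : ∀ w ∈ s, w - T * Complex.I ∈ Metric.ball z₀ r := by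
        intro w hw
        rw [hs, Metric.mem_ball, Complex.dist_eq] at hw
        rw [Metric.mem_ball, Complex.dist_eq]
        convert hw using 2
        ring
      have hsU : ∀ w ∈ s, w ∈ UH ∧ |w.re| ≤ |z₀.re| + r ∧ Y ≤ w.im := by
        intro w hw
        obtain ⟨h1, h2, h3⟩ := hball _ (hsub w hw)
        have e1 : (w - T * Complex.I).re = w.re := by simp
        have e2 : (w - T * Complex.I).im = w.im - T := by simp
        rw [e1] at h2
        rw [e2] at h3
        rw [mem_UH, e2] at h1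
        refine ⟨?_, h2, by linarith⟩
        rw [mem_UH]; linarith
      have hderiv : ∀ w ∈ s, HasDerivWithinAt G (F w) s w := fun w hw =>
        (hG w (hsU w hw).1).hasDerivWithinAt
      have hbound : ∀ w ∈ s, ‖F w‖ ≤ A * Real.exp (-c * T) := by
        intro w hw
        obtain ⟨h1, h2, h3⟩ := hsU w hw
        refine (h w h2 h3).trans ?_
        have hwT : T ≤ w.im := by
          obtain ⟨-, -, h3'⟩ := hball _ (hsub w hw)
          have e2 : (w - T * Complex.I).im = w.im - T := by simp
          rw [e2] at h3'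
          linarith
        have : Real.exp (-c * w.im) ≤ Real.exp (-c * T) := by
          apply Real.exp_le_exp.mpr
          nlinarith
        exact mul_le_mul_of_nonneg_left this hA
      have hz₀s : z₀ + T * Complex.I ∈ s := Metric.mem_ball_self hr0
      have hzs : z + T * Complex.I ∈ s := by
        rw [hs, Metric.mem_ball, Complex.dist_eq]
        rw [Metric.mem_ball, Complex.dist_eq] at hz
        convert hz using 2
        ring
      have := (convex_ball (z₀ + T * Complex.I) r).norm_image_sub_le_of_norm_hasDerivWithin_le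
        hderiv hbound hz₀s hzs
      refine this.trans ?_
      have hdist : ‖z + T * Complex.I - (z₀ + T * Complex.I)‖ ≤ r := by
        rw [Metric.mem_ball, Complex.dist_eq] at hz
        have : z + T * Complex.I - (z₀ + T * Complex.I) = z - z₀ := by ring
        rw [this]
        exact hz.le
      exact mul_le_mul_of_nonneg_left hdist (by positivity)
    have := tendsto_nhds_unique t3 t4
    exact sub_eq_zero.mp this
  have heq : prim F =ᶠ[𝓝 z₀] fun z => G z - (G z₀ - prim F z₀) := by
    filter_upwards [Metric.ball_mem_nhds z₀ hr0] with z hz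
    have := hconst z hz
    rw [← this]
    ring
  have hG' : HasDerivAt (fun z => G z - (G z₀ - prim F z₀)) (F z₀) z₀ :=
    (hG z₀ hz₀).sub_const _
  exact hG'.congr_of_eventuallyEq heq

theorem prim_add {F G : ℂ → ℂ} (hF : ContinuousOn F UH) (hdF : SDecay F)
    (hG : ContinuousOn G UH) (hdG : SDecay G) {z : ℂ} (hz : z ∈ UH) :
    prim (fun w => F w + G w) z = prim F z + prim G z := by
  unfold prim
  rw [integral_add (integrableOn_ray hF hdF hz) (integrableOn_ray hG hdG hz)]
  ring

theorem prim_const_mul (F : ℂ → ℂ) (a : ℂ) (z : ℂ) :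
    prim (fun w => a * F w) z = a * prim F z := by
  unfold prim
  rw [MeasureTheory.integral_const_mul]
  ring

theorem prim_zero (z : ℂ) : prim (fun _ => (0 : ℂ)) z = 0 := by
  unfold prim
  simp

theorem prim_sum {ι : Type*} (s : Finset ι) {F : ι → ℂ → ℂ} (hF : ∀ i ∈ s, ContinuousOn (F i) UH)
    (hd : ∀ i ∈ s, SDecay (F i)) {z : ℂ} (hz : z ∈ UH) :
    prim (fun w => ∑ i ∈ s, F i w) z = ∑ i ∈ s, prim (F i) z := by
  classical
  induction s using Finset.induction_on with
  | empty => simpa using prim_zero z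
  | insert a s ha ih =>
    have h1 := hF a (Finset.mem_insert_self a s)
    have h2 : ∀ i ∈ s, ContinuousOn (F i) UH := fun i hi => hF i (Finset.mem_insert_of_mem hi)
    have d1 := hd a (Finset.mem_insert_self a s)
    have d2 : ∀ i ∈ s, SDecay (F i) := fun i hi => hd i (Finset.mem_insert_of_mem hi)
    have hc : ContinuousOn (fun w => ∑ i ∈ s, F i w) UH := continuousOn_finsetSum _ h2
    have hdd : SDecay (fun w => ∑ i ∈ s, F i w) := SDecay.sum s d2
    have : (fun w => ∑ i ∈ insert a s, F i w) = fun w => F a w + ∑ i ∈ s, F i w := by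
      ext w; rw [Finset.sum_insert ha]
    rw [this, prim_add h1 d1 hc hdd hz, ih h2 d2, Finset.sum_insert ha]

/-- change of variables along an affine map with positive real slope -/
theorem prim_comp_affine (F : ℂ → ℂ) {b : ℝ} (hb : 0 < b) (s : ℂ) (z : ℂ) :
    prim (fun w => F ((b : ℂ) * w + s)) z = (b : ℂ)⁻¹ * prim F ((b : ℂ) * z + s) := by
  unfold prim
  have h := integral_comp_mul_left_Ioi (fun t : ℝ => F ((b : ℂ) * z + s + (t : ℂ) * Complex.I)) 0 hb
  rw [mul_zero] at h
  have e : (fun t : ℝ => F ((b : ℂ) * (z + (t : ℂ) * Complex.I) + s)) =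
      fun t : ℝ => F ((b : ℂ) * z + s + ((b * t : ℝ) : ℂ) * Complex.I) := by
    ext t
    congr 1
    push_cast
    ring
  rw [e, h]
  rw [Complex.real_smul]
  push_cast
  ring

theorem prim_congr {F G : ℂ → ℂ} (h : ∀ w ∈ UH, F w = G w) {z : ℂ} (hz : z ∈ UH) :
    prim F z = prim G z := by
  unfold prim
  congr 2
  refine setIntegral_congr_fun measurableSet_Ioi fun t ht => ?_
  exact h _ (ray_mem_UH hz (le_of_lt ht))

theorem SDecay.comp_affine {F : ℂ → ℂ} (hd : SDecay F) {b : ℝ} (hb : 0 < b) (s : ℝ) :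
    SDecay (fun w => F ((b : ℂ) * w + s)) := by
  intro R
  obtain ⟨A, c, Y, hA, hc, hY, h⟩ := hd.exists_good (b * |R| + |s|)
  refine ⟨A, c * b, Y / b, by positivity, fun z hz hzY => ?_⟩
  have hre : ((b : ℂ) * z + s).re = b * z.re + s := by simp
  have him : ((b : ℂ) * z + s).im = b * z.im := by simp
  have h1 : |((b : ℂ) * z + s).re| ≤ b * |R| + |s| := by
    rw [hre]
    refine (abs_add_le _ _).trans (add_le_add ?_ le_rfl)
    rw [abs_mul, abs_of_pos hb]
    exact mul_le_mul_of_nonneg_left (hz.trans (le_abs_self R)) hb.le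
  have h2 : Y ≤ ((b : ℂ) * z + s).im := by
    rw [him]
    rw [div_le_iff₀ hb] at hzY
    linarith
  have := h _ h1 h2
  rw [him] at this
  convert this using 3
  ring

theorem differentiableOn_comp_affine {F : ℂ → ℂ} (hF : DifferentiableOn ℂ F UH) {b : ℝ}
    (hb : 0 < b) (s : ℝ) : DifferentiableOn ℂ (fun w => F ((b : ℂ) * w + s)) UH := by
  have hmap : MapsTo (fun w : ℂ => (b : ℂ) * w + s) UH UH := by
    intro w hw
    rw [mem_UH] at hw ⊢
    simp
    positivity
  have hd : DifferentiableOn ℂ (fun w : ℂ => (b : ℂ) * w + s) UH := by fun_prop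
  exact hF.comp hd hmap

end Prim

end Fermat.Agent.S22
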