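import Mathlib
import Fermat.Agent.S22.Primitive
import Fermat.Agent.S22.Lattice

set_option autoImplicit false

namespace Fermat.Agent.S22

open UpperHalfPlane Complex Matrix
open scoped MatrixGroups ModularForm

/-- The integrand `f(w) (v₀ w + v₁)^n`. -/
noncomputable def integrand (n : ℕ) (f : ℍ → ℂ) (v : Fin 2 → ℂ) : ℂ → ℂ :=
  fun w => f (ofComplex w) * (v 0 * w + v 1) ^ n

/-- The Eichler integral `J_v(z) = ∫_{i∞}^z f(w) (v₀ w + v₁)^n dw`. -/
noncomputable def eichler (n : ℕ) (f : ℍ → ℂ) (v : Fin 2 → ℂ) (z : ℂ) : ℂ :=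
  prim (integrand n f v) z

/-- Holomorphic with strip-uniform exponential decay. -/
structure Good (f : ℍ → ℂ) : Prop where
  holo : DifferentiableOn ℂ (f ∘ ofComplex) UH
  decay : SDecay (f ∘ ofComplex)

theorem Good.add {f g : ℍ → ℂ} (hf : Good f) (hg : Good g) : Good (f + g) :=
  ⟨hf.holo.add hg.holo, hf.decay.add hg.decay⟩

theorem Good.const_smul {f : ℍ → ℂ} (hf : Good f) (c : ℂ) : Good (c • f) :=
  ⟨hf.holo.const_smul c, hf.decay.const_mul c⟩

theorem linPow_bound (n : ℕ) (v : Fin 2 → ℂ) (R : ℝ) :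
    ∃ K : ℝ, ∀ z : ℂ, |z.re| ≤ R → 1 ≤ z.im → ‖(v 0 * z + v 1) ^ n‖ ≤ K * (1 + z.im) ^ n := by
  refine ⟨(‖v 0‖ * (|R| + 1) + ‖v 1‖) ^ n, fun z hz hz1 => ?_⟩
  rw [norm_pow, ← mul_pow]
  have hz0 : 0 ≤ z.im := by linarith
  have hR : 0 ≤ |R| := abs_nonneg R
  have hnz : ‖z‖ ≤ |R| + z.im := by
    calc ‖z‖ ≤ |z.re| + |z.im| := Complex.norm_le_abs_re_add_abs_im z
      _ ≤ |R| + z.im := by rw [abs_of_nonneg hz0]; linarith [le_abs_self R]
  refine pow_le_pow_left₀ (norm_nonneg _) ?_ n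
  calc ‖v 0 * z + v 1‖ ≤ ‖v 0‖ * ‖z‖ + ‖v 1‖ := by
        refine (norm_add_le _ _).trans ?_
        rw [norm_mul]
    _ ≤ ‖v 0‖ * (|R| + z.im) + ‖v 1‖ := by gcongr
    _ ≤ (‖v 0‖ * (|R| + 1) + ‖v 1‖) * (1 + z.im) := by
        have h0 := norm_nonneg (v 0)
        have h1 := norm_nonneg (v 1)
        nlinarith [mul_nonneg h0 hR, mul_nonneg h0 hz0, mul_nonneg h1 hz0,
          mul_nonneg (mul_nonneg h0 hR) hz0]

theorem Good.integrand_diff {f : ℍ → ℂ} (hf : Good f) (n : ℕ) (v : Fin 2 → ℂ) :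
    DifferentiableOn ℂ (integrand n f v) UH := by
  unfold integrand
  refine hf.holo.mul ?_
  fun_prop

theorem Good.integrand_decay {f : ℍ → ℂ} (hf : Good f) (n : ℕ) (v : Fin 2 → ℂ) :
    SDecay (integrand n f v) :=
  hf.decay.mul_poly n (linPow_bound n v)

theorem hasDerivAt_eichler {f : ℍ → ℂ} (hf : Good f) (n : ℕ) (v : Fin 2 → ℂ) {z : ℂ}
    (hz : z ∈ UH) : HasDerivAt (eichler n f v) (integrand n f v z) z :=
  hasDerivAt_prim (hf.integrand_diff n v) (hf.integrand_decay n v) hz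

theorem eichler_add {f g : ℍ → ℂ} (hf : Good f) (hg : Good g) (n : ℕ) (v : Fin 2 → ℂ) {z : ℂ}
    (hz : z ∈ UH) : eichler n (f + g) v z = eichler n f v z + eichler n g v z := by
  unfold eichler
  rw [← prim_add (hf.integrand_diff n v).continuousOn (hf.integrand_decay n v)
    (hg.integrand_diff n v).continuousOn (hg.integrand_decay n v) hz]
  congr 1
  ext w
  simp [integrand, add_mul]

theorem eichler_smul (f : ℍ → ℂ) (c : ℂ) (n : ℕ) (v : Fin 2 → ℂ) (z : ℂ) :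
    eichler n (c • f) v z = c * eichler n f v z := by
  unfold eichler
  rw [← prim_const_mul]
  congr 1
  ext w
  simp [integrand, mul_assoc]

/-- The `j`-th moment. -/
noncomputable def moment (j : ℕ) (f : ℍ → ℂ) (z : ℂ) : ℂ :=
  prim (fun w => f (ofComplex w) * w ^ j) z

theorem Good.moment_diff {f : ℍ → ℂ} (hf : Good f) (j : ℕ) :
    DifferentiableOn ℂ (fun w => f (ofComplex w) * w ^ j) UH := by
  refine hf.holo.mul ?_
  fun_prop

theorem Good.moment_decay {f : ℍ → ℂ} (hf : Good f) (j : ℕ) :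
    SDecay (fun w => f (ofComplex w) * w ^ j) := by
  have := hf.integrand_decay j ![1, 0]
  convert this using 2
  rename_i w
  simp [integrand]

theorem hasDerivAt_moment {f : ℍ → ℂ} (hf : Good f) (j : ℕ) {z : ℂ} (hz : z ∈ UH) :
    HasDerivAt (moment j f) (f (ofComplex z) * z ^ j) z :=
  hasDerivAt_prim (hf.moment_diff j) (hf.moment_decay j) hz

theorem eichler_eq_sum {f : ℍ → ℂ} (hf : Good f) (n : ℕ) (v : Fin 2 → ℂ) {z : ℂ} (hz : z ∈ UH) :
    eichler n f v z = ∑ j ∈ Finset.range (n + 1),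
      ((n.choose j : ℂ) * (v 0 ^ j * v 1 ^ (n - j))) * moment j f z := by
  unfold eichler moment
  have h1 : integrand n f v = fun w => ∑ j ∈ Finset.range (n + 1),
      ((n.choose j : ℂ) * (v 0 ^ j * v 1 ^ (n - j))) * (f (ofComplex w) * w ^ j) := by
    ext w
    simp only [integrand]
    rw [add_pow, Finset.mul_sum]
    refine Finset.sum_congr rfl fun j _ => ?_
    rw [mul_pow]
    ring
  rw [h1, prim_sum _ (fun j _ => ?_) (fun j _ => ?_) hz]
  · refine Finset.sum_congr rfl fun j _ => ?_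
    rw [prim_const_mul]
  · exact continuousOn_const.mul (hf.moment_diff j).continuousOn
  · exact (hf.moment_decay j).const_mul _

theorem eichler_mem_polySpace {f : ℍ → ℂ} (hf : Good f) (n : ℕ) {z : ℂ} (hz : z ∈ UH) :
    (fun v => eichler n f v z : PolyFun) ∈ polySpace n := by
  have : (fun v => eichler n f v z : PolyFun) = ∑ j ∈ Finset.range (n + 1),
      ((n.choose j : ℂ) * moment j f z) • mono n j := by
    ext v
    rw [eichler_eq_sum hf n v hz, Finset.sum_apply]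
    refine Finset.sum_congr rfl fun j _ => ?_
    simp only [Pi.smul_apply, mono, smul_eq_mul]
    ring
  rw [this]
  refine Submodule.sum_mem _ fun j hj => Submodule.smul_mem _ _ (mono_mem_polySpace ?_)
  exact Nat.lt_succ_iff.mp (Finset.mem_range.mp hj)

section Moebius

/-- denominator of the Möbius action, on `ℂ` -/
noncomputable def den (γ : SL(2, ℤ)) (z : ℂ) : ℂ := (γ 1 0 : ℂ) * z + (γ 1 1 : ℂ)

/-- Möbius action on `ℂ` -/
noncomputable def mob (γ : SL(2, ℤ)) (z : ℂ) : ℂ :=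
  ((γ 0 0 : ℂ) * z + (γ 0 1 : ℂ)) / den γ z

theorem coe_smul_eq_mob (γ : SL(2, ℤ)) (τ : ℍ) : ((γ • τ : ℍ) : ℂ) = mob γ τ := by
  rw [coe_specialLinearGroup_apply]
  simp [mob, den]

theorem denom_eq_den (γ : SL(2, ℤ)) (τ : ℍ) : denom γ τ = den γ τ := by
  simp [denom, den]

theorem den_ne_zero (γ : SL(2, ℤ)) {z : ℂ} (hz : z ∈ UH) : den γ z ≠ 0 := by
  have := denom_ne_zero γ ⟨z, hz⟩
  rwa [denom_eq_den] at this

theorem mob_mem_UH (γ : SL(2, ℤ)) {z : ℂ} (hz : z ∈ UH) : mob γ z ∈ UH := by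
  have := (γ • (⟨z, hz⟩ : ℍ)).im_pos
  rw [← UpperHalfPlane.coe_im, coe_smul_eq_mob] at this
  exact this

theorem ofComplex_mob (γ : SL(2, ℤ)) {z : ℂ} (hz : z ∈ UH) :
    ofComplex (mob γ z) = γ • ofComplex z := by
  have h1 : ofComplex z = ⟨z, hz⟩ := ofComplex_apply_of_im_pos hz
  rw [h1]
  have h2 : mob γ z = ((γ • (⟨z, hz⟩ : ℍ) : ℍ) : ℂ) := (coe_smul_eq_mob γ ⟨z, hz⟩).symm
  rw [h2, ofComplex_apply]

theorem det_eq_one (γ : SL(2, ℤ)) : (γ 0 0 : ℂ) * (γ 1 1 : ℂ) - (γ 0 1 : ℂ) * (γ 1 0 : ℂ) = 1 := by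
  have h := γ.det_coe
  rw [Matrix.det_fin_two] at h
  exact_mod_cast h

theorem hasDerivAt_mob (γ : SL(2, ℤ)) {z : ℂ} (hz : z ∈ UH) :
    HasDerivAt (mob γ) ((den γ z ^ 2)⁻¹) z := by
  have hd := den_ne_zero γ hz
  have h1 : HasDerivAt (fun z : ℂ => (γ 0 0 : ℂ) * z + (γ 0 1 : ℂ)) (γ 0 0 : ℂ) z := by
    simpa using ((hasDerivAt_id z).const_mul (γ 0 0 : ℂ)).add_const (γ 0 1 : ℂ)
  have h2 : HasDerivAt (den γ) (γ 1 0 : ℂ) z := by
    have := ((hasDerivAt_id z).const_mul (γ 1 0 : ℂ)).add_const (γ 1 1 : ℂ)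
    simp only [mul_one] at this
    exact this
  have := h1.div h2 hd
  have hdet := det_eq_one γ
  have e : ((γ 0 0 : ℂ) * den γ z - ((γ 0 0 : ℂ) * z + (γ 0 1 : ℂ)) * (γ 1 0 : ℂ)) / den γ z ^ 2
      = (den γ z ^ 2)⁻¹ := by
    rw [div_eq_mul_inv]
    have : (γ 0 0 : ℂ) * den γ z - ((γ 0 0 : ℂ) * z + (γ 0 1 : ℂ)) * (γ 1 0 : ℂ) = 1 := by
      simp only [den]
      linear_combination hdet
    rw [this, one_mul]
  rw [e] at this
  exact this

end Moebius

section Transformation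

variable {n : ℕ} {k : ℤ}

theorem integrand_mob (hk : k = (n : ℤ) + 2) (f : ℍ → ℂ) (γ : SL(2, ℤ)) (v : Fin 2 → ℂ) {z : ℂ}
    (hz : z ∈ UH) :
    integrand n f v (mob γ z) * (den γ z ^ 2)⁻¹ =
      integrand n (f ∣[k] γ) (Matrix.vecMul v (toC γ)) z := by
  have hd := den_ne_zero γ hz
  simp only [integrand]
  rw [ofComplex_mob γ hz, ModularForm.SL_slash_apply, vecMul_toC_zero, vecMul_toC_one]
  have hden : denom γ (ofComplex z) = den γ z := by
    rw [denom_eq_den, ofComplex_apply_of_im_pos hz]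
  rw [hden]
  have hlin : (((γ 0 0 : ℤ) : ℂ) * v 0 + ((γ 1 0 : ℤ) : ℂ) * v 1) * z
      + (((γ 0 1 : ℤ) : ℂ) * v 0 + ((γ 1 1 : ℤ) : ℂ) * v 1) = den γ z * (v 0 * mob γ z + v 1) := by
    have : den γ z * mob γ z = (γ 0 0 : ℂ) * z + (γ 0 1 : ℂ) := by
      rw [mob, mul_div_cancel₀ _ hd]
    rw [mul_add, ← mul_assoc, mul_comm (den γ z) (v 0), mul_assoc, this]
    simp only [den]
    ring
  rw [hlin, mul_pow, hk]
  have hz1 : den γ z ^ (-((n : ℤ) + 2)) = (den γ z ^ n)⁻¹ * (den γ z ^ 2)⁻¹ := by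
    rw [_root_.zpow_neg, zpow_add₀ hd, zpow_natCast, mul_inv]
    norm_cast
  rw [hz1]
  field_simp

/-- The constant in the transformation law. -/
noncomputable def kappa (n : ℕ) (k : ℤ) (f : ℍ → ℂ) (γ : SL(2, ℤ)) : PolyFun :=
  fun v => eichler n f v (mob γ Complex.I) -
    eichler n (f ∣[k] γ) (Matrix.vecMul v (toC γ)) Complex.I

theorem eichler_mob (hk : k = (n : ℤ) + 2) {f : ℍ → ℂ} (hf : Good f) (γ : SL(2, ℤ))
    (hfγ : Good (f ∣[k] γ)) (v : Fin 2 → ℂ) {z : ℂ} (hz : z ∈ UH) :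
    eichler n f v (mob γ z) =
      eichler n (f ∣[k] γ) (Matrix.vecMul v (toC γ)) z + kappa n k f γ v := by
  set D : ℂ → ℂ := fun z => eichler n f v (mob γ z) -
    eichler n (f ∣[k] γ) (Matrix.vecMul v (toC γ)) z with hD
  have hderiv : ∀ z ∈ UH, HasDerivAt D 0 z := by
    intro z hz
    have h1 := (hasDerivAt_eichler hf n v (mob_mem_UH γ hz)).comp z (hasDerivAt_mob γ hz)
    have h2 := hasDerivAt_eichler hfγ n (Matrix.vecMul v (toC γ)) hz
    have := h1.sub h2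
    rw [integrand_mob hk f γ v hz, sub_self] at this
    exact this
  have hdiff : DifferentiableOn ℂ D UH := fun z hz =>
    (hderiv z hz).differentiableAt.differentiableWithinAt
  have hconst := isOpen_UH.is_const_of_deriv_eq_zero isPreconnected_UH hdiff
    (fun z hz => (hderiv z hz).deriv) hz I_mem_UH
  have : D z = kappa n k f γ v := hconst
  rw [← this]
  simp [hD]

theorem kappa_mem_polySpace {f : ℍ → ℂ} (hf : Good f) (γ : SL(2, ℤ))
    (hfγ : Good (f ∣[k] γ)) : kappa n k f γ ∈ polySpace n := by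
  have h1 := eichler_mem_polySpace hf n (mob_mem_UH γ I_mem_UH)
  have h2 := act_mem_polySpace (γ : Matrix (Fin 2) (Fin 2) ℤ)
    (eichler_mem_polySpace hfγ n I_mem_UH)
  exact Submodule.sub_mem _ h1 h2

end Transformation

end Fermat.Agent.S22
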