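import Mathlib
import Fermat.Agent.S22.Period
import Fermat.Agent.S22.AbstractCocycle

set_option autoImplicit false

namespace Fermat.Agent.S22

open UpperHalfPlane Complex Matrix
open scoped MatrixGroups ModularForm

variable {n : ℕ} {k : ℤ}

/-- All `SL(2, ℤ)`-translates are holomorphic with exponential decay. -/
def AllGood (k : ℤ) (f : ℍ → ℂ) : Prop := ∀ δ : SL(2, ℤ), Good (f ∣[k] δ)

theorem AllGood.good {f : ℍ → ℂ} (h : AllGood k f) : Good f := by
  have := h 1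
  rwa [SlashAction.slash_one] at this

theorem AllGood.add {f g : ℍ → ℂ} (hf : AllGood k f) (hg : AllGood k g) : AllGood k (f + g) := by
  intro δ
  rw [SlashAction.add_slash]
  exact (hf δ).add (hg δ)

theorem AllGood.const_smul {f : ℍ → ℂ} (hf : AllGood k f) (c : ℂ) : AllGood k (c • f) := by
  intro δ
  rw [ModularForm.SL_smul_slash]
  exact (hf δ).const_smul c

theorem mob_mul (γ δ : SL(2, ℤ)) {z : ℂ} (hz : z ∈ UH) : mob (γ * δ) z = mob γ (mob δ z) := by
  have h1 := coe_smul_eq_mob (γ * δ) ⟨z, hz⟩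
  have h2 := coe_smul_eq_mob γ (δ • ⟨z, hz⟩)
  have h3 := coe_smul_eq_mob δ ⟨z, hz⟩
  rw [mul_smul] at h1
  rw [h3] at h2
  rw [← h1, h2]

theorem vecMul_toC_mul (γ δ : SL(2, ℤ)) (v : Fin 2 → ℂ) :
    Matrix.vecMul v (toC ((γ * δ : SL(2, ℤ)) : Matrix (Fin 2) (Fin 2) ℤ)) =
      Matrix.vecMul (Matrix.vecMul v (toC γ)) (toC δ) := by
  rw [Matrix.SpecialLinearGroup.coe_mul, toC_mul, Matrix.vecMul_vecMul]

/-- The cocycle relation. -/
theorem kappa_mul (hk : k = (n : ℤ) + 2) {f : ℍ → ℂ} (hf : AllGood k f) (γ δ : SL(2, ℤ))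
    (hγ : f ∣[k] γ = f) (hδ : f ∣[k] δ = f) :
    kappa n k f (γ * δ) = kappa n k f γ + act γ (kappa n k f δ) := by
  ext v
  have hγδ : f ∣[k] (γ * δ) = f := by rw [SlashAction.slash_mul, hγ, hδ]
  have e1 := eichler_mob hk hf.good γ (hf γ) v (mob_mem_UH δ I_mem_UH)
  have e2 := eichler_mob hk hf.good δ (hf δ) (Matrix.vecMul v (toC γ)) I_mem_UH
  rw [hγ] at e1
  rw [hδ] at e2
  rw [Pi.add_apply, act_apply]
  have e3 : kappa n k f (γ * δ) v = eichler n f v (mob (γ * δ) Complex.I) -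
      eichler n f (Matrix.vecMul v (toC ((γ * δ : SL(2, ℤ)) : Matrix (Fin 2) (Fin 2) ℤ)))
        Complex.I := by
    simp only [kappa, hγδ]
  rw [e3, mob_mul γ δ I_mem_UH, e1, e2, vecMul_toC_mul]
  ring

theorem kappa_add {f g : ℍ → ℂ} (hf : AllGood k f) (hg : AllGood k g) (γ : SL(2, ℤ)) :
    kappa n k (f + g) γ = kappa n k f γ + kappa n k g γ := by
  ext v
  simp only [kappa, Pi.add_apply, SlashAction.add_slash]
  rw [eichler_add hf.good hg.good n v (mob_mem_UH γ I_mem_UH),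
    eichler_add (hf γ) (hg γ) n _ I_mem_UH]
  ring

theorem kappa_smul (f : ℍ → ℂ) (c : ℂ) (γ : SL(2, ℤ)) :
    kappa n k (c • f) γ = c • kappa n k f γ := by
  ext v
  simp only [kappa, Pi.smul_apply, ModularForm.SL_smul_slash, eichler_smul, smul_eq_mul]
  ring

/-- The action of `SL(2, ℤ)` on functions on `ℂ²`, as a monoid homomorphism. -/
noncomputable def rhoSL : SL(2, ℤ) →* Module.End ℂ PolyFun where
  toFun γ := act (γ : Matrix (Fin 2) (Fin 2) ℤ)
  map_one' := by rw [Matrix.SpecialLinearGroup.coe_one, act_one]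
  map_mul' γ δ := by rw [Matrix.SpecialLinearGroup.coe_mul, act_mul]

@[simp] theorem rhoSL_apply (γ : SL(2, ℤ)) : rhoSL γ = act (γ : Matrix (Fin 2) (Fin 2) ℤ) := rfl

end Fermat.Agent.S22
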