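import Mathlib
import Fermat.Prelude.Def_CuspForm_HeckeAlgebra
import Fermat.Agent.S22.Gamma0Cocycle

set_option autoImplicit false

namespace Fermat.Agent.S22

open UpperHalfPlane Complex Matrix ModularForm
open scoped MatrixGroups ModularForm
open P2MW.S_ModularForm_heckeT_slash_eq_self_of_mem_Gamma0.ModularForm.HeckeSlashInvariance

variable {n : ℕ} {k : ℤ} {p : ℕ}

/-- integer coset representatives -/
def repMat (p : ℕ) (x : OnePoint (ZMod p)) : Matrix (Fin 2) (Fin 2) ℤ :=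
  x.elim !![(p : ℤ), 0; 0, 1] (fun j => !![1, (j.val : ℤ); 0, (p : ℤ)])

/-- adjugates of the integer coset representatives -/
def adjMat (p : ℕ) (x : OnePoint (ZMod p)) : Matrix (Fin 2) (Fin 2) ℤ :=
  x.elim !![1, 0; 0, (p : ℤ)] (fun j => !![(p : ℤ), -(j.val : ℤ); 0, 1])

/-- the action of the coset representatives on `ℂ` -/
noncomputable def pt (p : ℕ) (x : OnePoint (ZMod p)) (z : ℂ) : ℂ :=
  x.elim ((p : ℂ) * z) (fun j => (z + (j.val : ℂ)) / (p : ℂ))

theorem adjMat_mul_repMat (p : ℕ) (x : OnePoint (ZMod p)) :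
    adjMat p x * repMat p x = (p : ℤ) • (1 : Matrix (Fin 2) (Fin 2) ℤ) := by
  induction x using OnePoint.rec with
  | infty =>
    ext i j
    fin_cases i <;> fin_cases j <;> simp [adjMat, repMat, Matrix.mul_apply, Fin.sum_univ_two]
  | coe y =>
    ext i j
    fin_cases i <;> fin_cases j <;> simp [adjMat, repMat, Matrix.mul_apply, Fin.sum_univ_two]
    ring

theorem repMat_mul_adjMat (p : ℕ) (x : OnePoint (ZMod p)) :
    repMat p x * adjMat p x = (p : ℤ) • (1 : Matrix (Fin 2) (Fin 2) ℤ) := by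
  induction x using OnePoint.rec with
  | infty =>
    ext i j
    fin_cases i <;> fin_cases j <;> simp [adjMat, repMat, Matrix.mul_apply, Fin.sum_univ_two]
  | coe y =>
    ext i j
    fin_cases i <;> fin_cases j <;> simp [adjMat, repMat, Matrix.mul_apply, Fin.sum_univ_two]

theorem heckeRep_val (hp : p ≠ 0) (x : OnePoint (ZMod p)) :
    ((heckeRep p x : GL (Fin 2) ℝ) : Matrix (Fin 2) (Fin 2) ℝ) =
      (repMat p x).map (Int.cast : ℤ → ℝ) := by
  induction x using OnePoint.rec with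
  | infty =>
    show ((heckeDiagMatrix p : GL (Fin 2) ℝ) : Matrix (Fin 2) (Fin 2) ℝ) = _
    rw [val_heckeDiagMatrix hp]
    ext i j
    fin_cases i <;> fin_cases j <;> simp [repMat]
  | coe y =>
    show ((heckeMatrix p y.val : GL (Fin 2) ℝ) : Matrix (Fin 2) (Fin 2) ℝ) = _
    rw [val_heckeMatrix hp]
    ext i j
    fin_cases i <;> fin_cases j <;> simp [repMat]

theorem coe_heckeRep_smul (hp : p ≠ 0) (x : OnePoint (ZMod p)) (τ : ℍ) :
    ((heckeRep p x • τ : ℍ) : ℂ) = pt p x τ := by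
  induction x using OnePoint.rec with
  | infty =>
    show ((heckeDiagMatrix p • τ : ℍ) : ℂ) = _
    rw [coe_heckeDiagMatrix_smul hp]
    rfl
  | coe y =>
    show ((heckeMatrix p y.val • τ : ℍ) : ℂ) = _
    rw [coe_heckeMatrix_smul hp]
    rfl

theorem pt_mem_UH (hp : p ≠ 0) (x : OnePoint (ZMod p)) {z : ℂ} (hz : z ∈ UH) :
    pt p x z ∈ UH := by
  have := (heckeRep p x • (⟨z, hz⟩ : ℍ)).im_pos
  rw [← UpperHalfPlane.coe_im, coe_heckeRep_smul hp] at this
  exact this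

theorem ofComplex_pt (hp : p ≠ 0) (x : OnePoint (ZMod p)) {z : ℂ} (hz : z ∈ UH) :
    ofComplex (pt p x z) = heckeRep p x • ofComplex z := by
  have h1 : ofComplex z = ⟨z, hz⟩ := ofComplex_apply_of_im_pos hz
  rw [h1]
  have h2 : pt p x z = ((heckeRep p x • (⟨z, hz⟩ : ℍ) : ℍ) : ℂ) :=
    (coe_heckeRep_smul hp x ⟨z, hz⟩).symm
  rw [h2, ofComplex_apply]

theorem slash_heckeRep_ofComplex (hk : k = (n : ℤ) + 2) (hp : p ≠ 0) (f : ℍ → ℂ)
    (x : OnePoint (ZMod p)) {w : ℂ} (hw : w ∈ UH) :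
    (f ∣[k] heckeRep p x) (ofComplex w) =
      x.elim ((p : ℂ) ^ (n + 1)) (fun _ => (p : ℂ)⁻¹) * f (ofComplex (pt p x w)) := by
  rw [ofComplex_pt hp x hw]
  induction x using OnePoint.rec with
  | infty =>
    show (f ∣[k] heckeDiagMatrix p) (ofComplex w) = _
    rw [slash_heckeDiagMatrix_apply k hp, hk]
    have : ((n : ℤ) + 2 - 1) = ((n + 1 : ℕ) : ℤ) := by push_cast; ring
    rw [this, zpow_natCast]
    rfl
  | coe y =>
    show (f ∣[k] heckeMatrix p y.val) (ofComplex w) = _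
    rw [slash_heckeMatrix_apply k hp]
    rfl

theorem integrand_slash_heckeRep (hk : k = (n : ℤ) + 2) (hp : p ≠ 0) (f : ℍ → ℂ)
    (x : OnePoint (ZMod p)) (v : Fin 2 → ℂ) {w : ℂ} (hw : w ∈ UH) :
    integrand n (f ∣[k] heckeRep p x) v w =
      x.elim (p : ℂ) (fun _ => (p : ℂ)⁻¹) *
        integrand n f (Matrix.vecMul v (toC (adjMat p x))) (pt p x w) := by
  have hp' : (p : ℂ) ≠ 0 := by exact_mod_cast hp
  simp only [integrand]
  rw [slash_heckeRep_ofComplex hk hp f x hw, vecMul_toC_zero, vecMul_toC_one]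
  induction x using OnePoint.rec with
  | infty =>
    simp only [OnePoint.elim_infty, adjMat, pt]
    simp only [Matrix.of_apply, Matrix.cons_val', Matrix.cons_val_zero, Matrix.cons_val_one,
      Matrix.cons_val_fin_one]
    push_cast
    have : ((1 : ℂ) * v 0 + 0 * v 1) * ((p : ℂ) * w) + (0 * v 0 + (p : ℂ) * v 1)
        = (p : ℂ) * (v 0 * w + v 1) := by ring
    rw [this, mul_pow, pow_succ]
    ring
  | coe y =>
    simp only [OnePoint.elim_some, adjMat, pt]
    simp only [Matrix.of_apply, Matrix.cons_val', Matrix.cons_val_zero, Matrix.cons_val_one,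
      Matrix.cons_val_fin_one]
    push_cast
    have : ((p : ℂ) * v 0 + 0 * v 1) * ((w + (y.val : ℂ)) / (p : ℂ)) +
        (-(y.val : ℂ) * v 0 + 1 * v 1) = v 0 * w + v 1 := by
      field_simp
      ring
    rw [this]
    ring

theorem eichler_slash_heckeRep (hk : k = (n : ℤ) + 2) (hp : p ≠ 0) (f : ℍ → ℂ)
    (x : OnePoint (ZMod p)) (v : Fin 2 → ℂ) {z : ℂ} (hz : z ∈ UH) :
    eichler n (f ∣[k] heckeRep p x) v z =
      eichler n f (Matrix.vecMul v (toC (adjMat p x))) (pt p x z) := by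
  have hp' : (p : ℂ) ≠ 0 := by exact_mod_cast hp
  have hpR : (0 : ℝ) < p := by exact_mod_cast Nat.pos_of_ne_zero hp
  unfold eichler
  rw [prim_congr (fun w hw => integrand_slash_heckeRep hk hp f x v hw) hz, prim_const_mul]
  induction x using OnePoint.rec with
  | infty =>
    simp only [OnePoint.elim_infty, pt]
    have h := prim_comp_affine (integrand n f (Matrix.vecMul v (toC (adjMat p OnePoint.infty))))
      hpR 0 z
    simp only [add_zero, Complex.ofReal_natCast] at h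
    rw [h]
    field_simp
  | coe y =>
    simp only [OnePoint.elim_some, pt]
    have h := prim_comp_affine (integrand n f (Matrix.vecMul v (toC (adjMat p (y : OnePoint (ZMod p))))))
      (inv_pos.mpr hpR) ((y.val : ℂ) / (p : ℂ)) z
    have e : ∀ w : ℂ, (w + (y.val : ℂ)) / (p : ℂ) = (((p : ℝ)⁻¹ : ℝ) : ℂ) * w + (y.val : ℂ) / (p : ℂ) := by
      intro w
      push_cast
      field_simp
    simp_rw [e]
    rw [h]
    push_cast
    field_simp

theorem pt_eq_affine (hp : p ≠ 0) (x : OnePoint (ZMod p)) :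
    ∃ b s : ℝ, 0 < b ∧ ∀ w : ℂ, pt p x w = (b : ℂ) * w + (s : ℂ) := by
  have hpR : (0 : ℝ) < p := by exact_mod_cast Nat.pos_of_ne_zero hp
  have hp' : (p : ℂ) ≠ 0 := by exact_mod_cast hp
  induction x using OnePoint.rec with
  | infty =>
    refine ⟨p, 0, hpR, fun w => ?_⟩
    simp [pt]
  | coe y =>
    refine ⟨(p : ℝ)⁻¹, (y.val : ℝ) / p, inv_pos.mpr hpR, fun w => ?_⟩
    simp only [pt, OnePoint.elim_some]
    push_cast
    field_simp

theorem SDecay.congr_UH {F G : ℂ → ℂ} (hG : SDecay G) (h : ∀ w ∈ UH, F w = G w) : SDecay F := by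
  intro R
  obtain ⟨A, c, Y, hA, hc, hY, hb⟩ := hG.exists_good R
  refine ⟨A, c, Y, hc, fun z hz hzY => ?_⟩
  have hzU : z ∈ UH := by rw [mem_UH]; linarith
  rw [h z hzU]
  exact hb z hz hzY

theorem Good.slash_heckeRep (hk : k = (n : ℤ) + 2) (hp : p ≠ 0) {f : ℍ → ℂ} (hf : Good f)
    (x : OnePoint (ZMod p)) : Good (f ∣[k] heckeRep p x) := by
  obtain ⟨b, s, hb, hpt⟩ := pt_eq_affine hp x
  have hcongr : ∀ w ∈ UH, ((f ∣[k] heckeRep p x) ∘ ofComplex) w =
      x.elim ((p : ℂ) ^ (n + 1)) (fun _ => (p : ℂ)⁻¹) * (f ∘ ofComplex) ((b : ℂ) * w + (s : ℂ)) := by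
    intro w hw
    rw [Function.comp_apply, slash_heckeRep_ofComplex hk hp f x hw, hpt, Function.comp_apply]
  refine ⟨?_, ?_⟩
  · refine DifferentiableOn.congr ?_ hcongr
    exact (differentiableOn_comp_affine hf.holo hb s).const_mul _
  · exact ((hf.decay.comp_affine hb s).const_mul _).congr_UH hcongr

theorem Good.zero : Good (0 : ℍ → ℂ) :=
  ⟨by
    have : ((0 : ℍ → ℂ) ∘ ofComplex) = fun _ => (0 : ℂ) := by ext; simp
    rw [this]; exact differentiableOn_const 0,
   by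
    have : ((0 : ℍ → ℂ) ∘ ofComplex) = fun _ => (0 : ℂ) := by ext; simp
    rw [this]; exact SDecay.zero⟩

theorem Good.sum {ι : Type*} (s : Finset ι) {g : ι → ℍ → ℂ} (hg : ∀ i ∈ s, Good (g i)) :
    Good (∑ i ∈ s, g i) := by
  classical
  induction s using Finset.induction_on with
  | empty => simpa using Good.zero
  | insert a s ha ih =>
    rw [Finset.sum_insert ha]
    exact (hg a (Finset.mem_insert_self a s)).add
      (ih fun i hi => hg i (Finset.mem_insert_of_mem hi))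

theorem eichler_zero (n : ℕ) (v : Fin 2 → ℂ) (z : ℂ) : eichler n (0 : ℍ → ℂ) v z = 0 := by
  have : integrand n (0 : ℍ → ℂ) v = fun _ => (0 : ℂ) := by ext; simp [integrand]
  rw [eichler, this, prim_zero]

theorem eichler_sum {ι : Type*} (s : Finset ι) {g : ι → ℍ → ℂ} (hg : ∀ i ∈ s, Good (g i))
    (n : ℕ) (v : Fin 2 → ℂ) {z : ℂ} (hz : z ∈ UH) :
    eichler n (∑ i ∈ s, g i) v z = ∑ i ∈ s, eichler n (g i) v z := by
  classical
  induction s using Finset.induction_on with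
  | empty => simpa using eichler_zero n v z
  | insert a s ha ih =>
    have h1 := hg a (Finset.mem_insert_self a s)
    have h2 : ∀ i ∈ s, Good (g i) := fun i hi => hg i (Finset.mem_insert_of_mem hi)
    rw [Finset.sum_insert ha, Finset.sum_insert ha, eichler_add h1 (Good.sum s h2) n v hz, ih h2]

/-- consequences of the coset relation: points -/
theorem pt_mob_of_mul (hp : p ≠ 0) {x y : OnePoint (ZMod p)} {γ γ' : SL(2, ℤ)}
    (hmul : heckeRep p x * Matrix.SpecialLinearGroup.mapGL ℝ γ =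
      Matrix.SpecialLinearGroup.mapGL ℝ γ' * heckeRep p y) {z : ℂ} (hz : z ∈ UH) :
    pt p x (mob γ z) = mob γ' (pt p y z) := by
  have h := congrArg (fun g : GL (Fin 2) ℝ => ((g • (⟨z, hz⟩ : ℍ) : ℍ) : ℂ)) hmul
  simp only [mul_smul] at h
  have e1 : (Matrix.SpecialLinearGroup.mapGL ℝ γ) • (⟨z, hz⟩ : ℍ) = γ • (⟨z, hz⟩ : ℍ) := rfl
  have e2 : (Matrix.SpecialLinearGroup.mapGL ℝ γ') • (heckeRep p y • (⟨z, hz⟩ : ℍ)) =
      γ' • (heckeRep p y • (⟨z, hz⟩ : ℍ)) := rfl
  rw [e1, e2, coe_heckeRep_smul hp, coe_smul_eq_mob, coe_smul_eq_mob, coe_heckeRep_smul hp] at h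
  exact h

/-- consequences of the coset relation: integer matrices -/
theorem repMat_mul_of_mul (hp : p ≠ 0) {x y : OnePoint (ZMod p)} {γ γ' : SL(2, ℤ)}
    (hmul : heckeRep p x * Matrix.SpecialLinearGroup.mapGL ℝ γ =
      Matrix.SpecialLinearGroup.mapGL ℝ γ' * heckeRep p y) :
    repMat p x * (γ : Matrix (Fin 2) (Fin 2) ℤ) = (γ' : Matrix (Fin 2) (Fin 2) ℤ) * repMat p y := by
  have h := congrArg (fun g : GL (Fin 2) ℝ => (g : Matrix (Fin 2) (Fin 2) ℝ)) hmul
  simp only [Matrix.GeneralLinearGroup.coe_mul, heckeRep_val hp,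
    Matrix.SpecialLinearGroup.mapGL_coe_matrix] at h
  have hinj : Function.Injective (fun M : Matrix (Fin 2) (Fin 2) ℤ => M.map (Int.cast : ℤ → ℝ)) :=
    Matrix.map_injective Int.cast_injective
  apply hinj
  simp only
  have e1 : (repMat p x * (γ : Matrix (Fin 2) (Fin 2) ℤ)).map (Int.cast : ℤ → ℝ) =
      (repMat p x).map (Int.cast : ℤ → ℝ) * (γ : Matrix (Fin 2) (Fin 2) ℤ).map (Int.cast : ℤ → ℝ) :=
    Matrix.map_mul (f := Int.castRingHom ℝ)
  have e2 : ((γ' : Matrix (Fin 2) (Fin 2) ℤ) * repMat p y).map (Int.cast : ℤ → ℝ) =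
      (γ' : Matrix (Fin 2) (Fin 2) ℤ).map (Int.cast : ℤ → ℝ) * (repMat p y).map (Int.cast : ℤ → ℝ) :=
    Matrix.map_mul (f := Int.castRingHom ℝ)
  rw [e1, e2]
  exact h

theorem adjMat_mul_of_mul (hp : p ≠ 0) {x y : OnePoint (ZMod p)} {γ γ' : SL(2, ℤ)}
    (hmul : heckeRep p x * Matrix.SpecialLinearGroup.mapGL ℝ γ =
      Matrix.SpecialLinearGroup.mapGL ℝ γ' * heckeRep p y) :
    adjMat p x * (γ' : Matrix (Fin 2) (Fin 2) ℤ) = (γ : Matrix (Fin 2) (Fin 2) ℤ) * adjMat p y := by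
  have h := repMat_mul_of_mul hp hmul
  have hpz : (p : ℤ) ≠ 0 := by exact_mod_cast hp
  have key : (p : ℤ) • (adjMat p x * (γ' : Matrix (Fin 2) (Fin 2) ℤ)) =
      (p : ℤ) • ((γ : Matrix (Fin 2) (Fin 2) ℤ) * adjMat p y) := by
    calc (p : ℤ) • (adjMat p x * (γ' : Matrix (Fin 2) (Fin 2) ℤ))
        = adjMat p x * (γ' : Matrix (Fin 2) (Fin 2) ℤ) * ((p : ℤ) • 1) := by
          rw [Matrix.mul_smul, Matrix.mul_one]
      _ = adjMat p x * ((γ' : Matrix (Fin 2) (Fin 2) ℤ) * repMat p y) * adjMat p y := by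
          rw [← repMat_mul_adjMat p y]
          simp only [Matrix.mul_assoc]
      _ = adjMat p x * (repMat p x * (γ : Matrix (Fin 2) (Fin 2) ℤ)) * adjMat p y := by rw [h]
      _ = (adjMat p x * repMat p x) * (γ : Matrix (Fin 2) (Fin 2) ℤ) * adjMat p y := by
          simp only [Matrix.mul_assoc]
      _ = (p : ℤ) • ((γ : Matrix (Fin 2) (Fin 2) ℤ) * adjMat p y) := by
          rw [adjMat_mul_repMat, Matrix.smul_mul, Matrix.one_mul, Matrix.smul_mul]
  exact smul_right_injective _ hpz key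

/-- The Eichler integral of a sum of Hecke translates. -/
theorem eichler_heckeSum (hk : k = (n : ℤ) + 2) (hp : p ≠ 0) {X : Type} [Fintype X]
    (r : X → OnePoint (ZMod p)) {f : ℍ → ℂ} (hf : Good f) (w : Fin 2 → ℂ) {z : ℂ}
    (hz : z ∈ UH) :
    eichler n (∑ x : X, f ∣[k] heckeRep p (r x)) w z =
      ∑ x : X, eichler n f (Matrix.vecMul w (toC (adjMat p (r x)))) (pt p (r x) z) := by
  rw [eichler_sum Finset.univ (fun x _ => hf.slash_heckeRep hk hp (r x)) n w hz]
  exact Finset.sum_congr rfl fun x _ => eichler_slash_heckeRep hk hp f (r x) w hz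

/-- **The Hecke formula on cocycles.** -/
theorem kappa_hecke (hk : k = (n : ℤ) + 2) (hp : p ≠ 0) {X : Type} [Fintype X]
    (r : X → OnePoint (ZMod p)) {f Tf : ℍ → ℂ} (hf : AllGood k f)
    (hTf : Tf = ∑ x : X, f ∣[k] heckeRep p (r x)) (γ : SL(2, ℤ)) (hTfγ : Tf ∣[k] γ = Tf)
    (σ : Equiv.Perm X) (γ' : X → SL(2, ℤ)) (hγ' : ∀ x, f ∣[k] γ' x = f)
    (hmul : ∀ x, heckeRep p (r x) * Matrix.SpecialLinearGroup.mapGL ℝ γ =
      Matrix.SpecialLinearGroup.mapGL ℝ (γ' x) * heckeRep p (r (σ x))) :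
    kappa n k Tf γ = ∑ x : X, act (adjMat p (r x)) (kappa n k f (γ' x)) := by
  ext v
  have hI := I_mem_UH
  have hmI := mob_mem_UH γ hI
  simp only [kappa]
  rw [hTfγ, hTf, eichler_heckeSum hk hp r hf.good v hmI,
    eichler_heckeSum hk hp r hf.good _ hI, Finset.sum_apply]
  have hterm : ∀ x : X,
      eichler n f (Matrix.vecMul v (toC (adjMat p (r x)))) (pt p (r x) (mob γ Complex.I)) =
        eichler n f (Matrix.vecMul (Matrix.vecMul v (toC γ)) (toC (adjMat p (r (σ x)))))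
          (pt p (r (σ x)) Complex.I) + act (adjMat p (r x)) (kappa n k f (γ' x)) v := by
    intro x
    rw [pt_mob_of_mul hp (hmul x) hI,
      eichler_mob hk hf.good (γ' x) (hf (γ' x)) _ (pt_mem_UH hp (r (σ x)) hI), hγ' x]
    have hv : Matrix.vecMul (Matrix.vecMul v (toC (adjMat p (r x)))) (toC (γ' x)) =
        Matrix.vecMul (Matrix.vecMul v (toC γ)) (toC (adjMat p (r (σ x)))) := by
      rw [Matrix.vecMul_vecMul, Matrix.vecMul_vecMul, ← toC_mul, ← toC_mul,
        adjMat_mul_of_mul hp (hmul x)]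
    rw [hv, act_apply]
  simp_rw [hterm]
  rw [Finset.sum_add_distrib]
  have hre := Equiv.sum_comp σ (fun x : X =>
    eichler n f (Matrix.vecMul (Matrix.vecMul v (toC γ)) (toC (adjMat p (r x))))
      (pt p (r x) Complex.I))
  rw [hre]
  ring

end Fermat.Agent.S22
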