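import Mathlib
import Fermat.Prelude.Def_CuspForm_HeckeAlgebra
import Fermat.Agent.S22.Hecke
import Fermat.Agent.S22.Decay

set_option autoImplicit false

namespace Fermat.Agent.S22

open UpperHalfPlane Complex Matrix ModularForm CongruenceSubgroup
open scoped MatrixGroups ModularForm
open P2MW.S_ModularForm_heckeT_slash_eq_self_of_mem_Gamma0.ModularForm.HeckeSlashInvariance

variable {N : ℕ} [NeZero N] {n : ℕ} {k : ℤ}

/-- All `SL(2, ℤ)`-translates of a cusp form are holomorphic with exponential decay. -/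
theorem allGood_coe_cuspForm (f : CuspForm (Gamma0 N) k) : AllGood k ⇑f :=
  fun δ => ⟨differentiableOn_slash f δ, sdecay_slash f δ⟩

omit [NeZero N] in
/-- Invariance of a cusp form under `Γ₀(N)`, for the `SL(2, ℤ)` slash action. -/
theorem slash_eq_of_mem_Gamma0 (f : CuspForm (Gamma0 N) k) {γ : SL(2, ℤ)}
    (hγ : γ ∈ Gamma0 N) : (⇑f) ∣[k] γ = ⇑f :=
  SlashInvariantFormClass.slash_action_eq f (Matrix.SpecialLinearGroup.mapGL ℝ γ)
    (Subgroup.mem_map_of_mem _ hγ)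

omit [NeZero N] in
theorem dvd_of_mem_Gamma0 {γ : SL(2, ℤ)} (hγ : γ ∈ Gamma0 N) : (N : ℤ) ∣ γ 1 0 :=
  (ZMod.intCast_zmod_eq_zero_iff_dvd _ _).mp (Gamma0_mem.mp hγ)

omit [NeZero N] in
theorem mem_Gamma0_of_dvd {γ : SL(2, ℤ)} (hγ : (N : ℤ) ∣ γ 1 0) : γ ∈ Gamma0 N :=
  Gamma0_mem.mpr ((ZMod.intCast_zmod_eq_zero_iff_dvd _ _).mpr hγ)

/-- **Hecke data for `T_p`, `p ∤ N`** (the `hT` hypothesis of `finite_adjoin_of_cocycle`). -/
theorem exists_hecke_data_T (hk : k = (n : ℤ) + 2) {p : ℕ} (hp : p.Prime) (hpN : ¬ p ∣ N) :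
    ∃ (X : Type) (_ : Fintype X) (A : X → Module.End ℂ PolyFun)
      (g : X → ↥(Gamma0 N) → ↥(Gamma0 N)),
      (∀ x, ∀ y ∈ polyLattice n, A x y ∈ polyLattice n) ∧
      ∀ (f : CuspForm (Gamma0 N) k) (γ : ↥(Gamma0 N)),
        kappa n k ⇑(CuspForm.heckeTLin k hp hpN f) (γ : SL(2, ℤ)) =
          ∑ x, A x (kappa n k ⇑f ((g x γ : ↥(Gamma0 N)) : SL(2, ℤ))) := by
  have : Fact p.Prime := ⟨hp⟩
  have : NeZero p := ⟨hp.ne_zero⟩
  have key : ∀ (γ : ↥(Gamma0 N)) (x : OnePoint (ZMod p)), ∃ g' : ↥(Gamma0 N),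
      heckeRep p x * Matrix.SpecialLinearGroup.mapGL ℝ (γ : SL(2, ℤ)) =
        Matrix.SpecialLinearGroup.mapGL ℝ (g' : SL(2, ℤ)) *
          heckeRep p (redMatrix p (γ : SL(2, ℤ)) • x) := by
    intro γ x
    obtain ⟨g', hg', hmul⟩ := heckeRep_mul hpN (γ : SL(2, ℤ)) (dvd_of_mem_Gamma0 γ.2) x
    exact ⟨⟨g', mem_Gamma0_of_dvd hg'⟩, hmul⟩
  choose G hG using key
  refine ⟨OnePoint (ZMod p), inferInstance, fun x => act (adjMat p x), fun x γ => G γ x,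
    fun x y hy => act_mem_polyLattice _ hy, fun f γ => ?_⟩
  refine kappa_hecke hk hp.ne_zero (fun x => x) (allGood_coe_cuspForm f) ?_ (γ : SL(2, ℤ)) ?_
    (MulAction.toPerm (redMatrix p (γ : SL(2, ℤ)))) (fun x => ((G γ x : ↥(Gamma0 N)) : SL(2, ℤ)))
    (fun x => slash_eq_of_mem_Gamma0 f (G γ x).2) (fun x => hG γ x)
  · rw [CuspForm.coe_heckeTLin_apply]
    exact heckeT_eq_sum_onePoint k ⇑f
  · exact slash_eq_of_mem_Gamma0 (CuspForm.heckeTLin k hp hpN f) γ.2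

/-- **Hecke data for `U_q`, `q ∣ N`** (the `hT` hypothesis of `finite_adjoin_of_cocycle`). -/
theorem exists_hecke_data_U (hk : k = (n : ℤ) + 2) {q : ℕ} (hq : q.Prime) (hqN : q ∣ N) :
    ∃ (X : Type) (_ : Fintype X) (A : X → Module.End ℂ PolyFun)
      (g : X → ↥(Gamma0 N) → ↥(Gamma0 N)),
      (∀ x, ∀ y ∈ polyLattice n, A x y ∈ polyLattice n) ∧
      ∀ (f : CuspForm (Gamma0 N) k) (γ : ↥(Gamma0 N)),
        kappa n k ⇑(CuspForm.heckeULin k hqN f) (γ : SL(2, ℤ)) =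
          ∑ x, A x (kappa n k ⇑f ((g x γ : ↥(Gamma0 N)) : SL(2, ℤ))) := by
  have : NeZero q := ⟨hq.ne_zero⟩
  have hdvd : ∀ γ : ↥(Gamma0 N), (q : ℤ) ∣ (γ : SL(2, ℤ)) 1 0 := fun γ =>
    (Int.natCast_dvd_natCast.mpr hqN).trans (dvd_of_mem_Gamma0 γ.2)
  have hc0 : ∀ γ : ↥(Gamma0 N), (((γ : SL(2, ℤ)) 1 0 : ℤ) : ZMod q) = 0 := fun γ =>
    (ZMod.intCast_zmod_eq_zero_iff_dvd _ _).mpr (hdvd γ)
  have key : ∀ (γ : ↥(Gamma0 N)) (x : ZMod q), ∃ g' : ↥(Gamma0 N),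
      heckeRep q (x : OnePoint (ZMod q)) * Matrix.SpecialLinearGroup.mapGL ℝ (γ : SL(2, ℤ)) =
        Matrix.SpecialLinearGroup.mapGL ℝ (g' : SL(2, ℤ)) *
          heckeRep q ((affinePerm (γ : SL(2, ℤ)) (hc0 γ) x : ZMod q) : OnePoint (ZMod q)) := by
    intro γ x
    obtain ⟨g', hg', hmul⟩ := heckeMatrix_mul_of_dvd (γ : SL(2, ℤ)) (hdvd γ) x
    refine ⟨⟨g', mem_Gamma0_of_dvd ?_⟩, hmul⟩
    rw [hg']
    exact dvd_mul_of_dvd_right (dvd_of_mem_Gamma0 γ.2) _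
  choose G hG using key
  refine ⟨ZMod q, inferInstance, fun x => act (adjMat q (x : OnePoint (ZMod q))),
    fun x γ => G γ x, fun x y hy => act_mem_polyLattice _ hy, fun f γ => ?_⟩
  refine kappa_hecke hk hq.ne_zero (fun x : ZMod q => (x : OnePoint (ZMod q)))
    (allGood_coe_cuspForm f) ?_ (γ : SL(2, ℤ)) ?_
    (affinePerm (γ : SL(2, ℤ)) (hc0 γ)) (fun x => ((G γ x : ↥(Gamma0 N)) : SL(2, ℤ)))
    (fun x => slash_eq_of_mem_Gamma0 f (G γ x).2) (fun x => hG γ x)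
  · rw [CuspForm.coe_heckeULin_apply]
    exact heckeU_eq_sum_zmod k ⇑f
  · exact slash_eq_of_mem_Gamma0 (CuspForm.heckeULin k hqN f) γ.2

end Fermat.Agent.S22
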