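import Mathlib

/-!
# S22: vanishing of invariant holomorphic functions of nonpositive weight

A holomorphic function on the upper half plane which is invariant under the weight `k` slash
action of `Γ₀(N)` and all of whose `SL(2, ℤ)`-translates are bounded at `i∞` is a modular form;
hence it vanishes if `k < 0` and it is constant if `k = 0`.
-/

set_option autoImplicit false

namespace Fermat.Agent.S22

open UpperHalfPlane ModularForm CongruenceSubgroup OnePoint
open scoped MatrixGroups Manifold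

/-- Package an invariant holomorphic function with bounded translates as a modular form. -/
noncomputable def modularFormOfBounded {N : ℕ} [NeZero N] {k : ℤ} (G : ℍ → ℂ) (hol : MDiff G)
    (hinv : ∀ γ ∈ Gamma0 N, G ∣[k] γ = G)
    (hbd : ∀ δ : SL(2, ℤ), IsBoundedAtImInfty (G ∣[k] δ)) :
    ModularForm (Gamma0 N : Subgroup (GL (Fin 2) ℝ)) k where
  toFun := G
  slash_action_eq' γ hγ := by
    obtain ⟨γ', hγ', rfl⟩ := Subgroup.mem_map.mp hγ
    exact hinv γ' hγ'
  holo' := hol
  bdd_at_cusps' {c} hc := by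
    rw [Subgroup.IsArithmetic.isCusp_iff_isCusp_SL2Z] at hc
    rw [OnePoint.isBoundedAt_iff_forall_SL2Z hc]
    exact fun γ _ => hbd γ

@[simp] theorem coe_modularFormOfBounded {N : ℕ} [NeZero N] {k : ℤ} (G : ℍ → ℂ) (hol : MDiff G)
    (hinv : ∀ γ ∈ Gamma0 N, G ∣[k] γ = G)
    (hbd : ∀ δ : SL(2, ℤ), IsBoundedAtImInfty (G ∣[k] δ)) :
    ⇑(modularFormOfBounded G hol hinv hbd) = G := rfl

/-- An invariant holomorphic function of negative weight with bounded translates vanishes. -/
theorem eq_zero_of_neg_weight {N : ℕ} [NeZero N] {k : ℤ} (hk : k < 0) {G : ℍ → ℂ} (hol : MDiff G)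
    (hinv : ∀ γ ∈ Gamma0 N, G ∣[k] γ = G)
    (hbd : ∀ δ : SL(2, ℤ), IsBoundedAtImInfty (G ∣[k] δ)) : G = 0 := by
  have h := ModularForm.isZero_of_neg_weight hk (modularFormOfBounded G hol hinv hbd)
  have h2 := congrArg (fun f : ModularForm (Gamma0 N : Subgroup (GL (Fin 2) ℝ)) k => (⇑f : ℍ → ℂ)) h
  simpa using h2

/-- An invariant holomorphic function of weight zero with bounded translates is constant. -/
theorem exists_eq_const_of_weight_zero {N : ℕ} [NeZero N] {G : ℍ → ℂ} (hol : MDiff G)
    (hinv : ∀ γ ∈ Gamma0 N, G ∣[(0 : ℤ)] γ = G)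
    (hbd : ∀ δ : SL(2, ℤ), IsBoundedAtImInfty (G ∣[(0 : ℤ)] δ)) :
    ∃ c : ℂ, G = Function.const ℍ c :=
  ModularForm.eq_const_of_weight_zero (modularFormOfBounded G hol hinv hbd)

end Fermat.Agent.S22
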