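import Fermat.Agent.S22.BigGDef
import Fermat.Agent.S22.Decay
import Fermat.Agent.S22.Periodic
import Fermat.Agent.S22.Vanish
import Fermat.Agent.S22.Growth

/-!
# S22: injectivity of the period cocycle

For a cusp form `f` of weight `k = n + 2` on `Γ₀(N)`, if the period cocycle `kappa n k f` vanishes
on `Γ₀(N)` then `f = 0`.  The function `E(z) = ∫_{i∞}^z f(w) (w - z)^n dw` is then a modular form
of weight `-n`, hence zero (or constant if `n = 0`), and `f` is recovered from `E` by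
differentiation.
-/

set_option autoImplicit false

namespace Fermat.Agent.S22

open UpperHalfPlane Complex Matrix ModularForm CongruenceSubgroup
open scoped MatrixGroups ModularForm Manifold

variable {n : ℕ} {k : ℤ}

/-- Cusp forms have good translates. -/
theorem allGood_cuspForm' {Γ : Subgroup (GL (Fin 2) ℝ)} [Γ.IsArithmetic] (f : CuspForm Γ k) :
    AllGood k ⇑f := fun δ => ⟨differentiableOn_slash' f δ, sdecay_slash' f δ⟩

/-- Cusp forms on `Γ₀(N)` have good translates. -/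
theorem allGood_cuspForm {N : ℕ} [NeZero N] {k : ℤ} (f : CuspForm (Gamma0 N) k) :
    AllGood k ⇑f := allGood_cuspForm' f

section Homogeneity

theorem integrand_smul_vec (n : ℕ) (f : ℍ → ℂ) (c : ℂ) (v : Fin 2 → ℂ) (w : ℂ) :
    integrand n f (c • v) w = c ^ n * integrand n f v w := by
  simp only [integrand, Pi.smul_apply, smul_eq_mul]
  rw [show c * v 0 * w + c * v 1 = c * (v 0 * w + v 1) by ring, mul_pow]
  ring

theorem eichler_smul_vec (n : ℕ) (f : ℍ → ℂ) (c : ℂ) (v : Fin 2 → ℂ) (z : ℂ) :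
    eichler n f (c • v) z = c ^ n * eichler n f v z := by
  unfold eichler
  rw [← prim_const_mul]
  congr 1
  ext w
  exact integrand_smul_vec n f c v w

end Homogeneity

section Diagonal

theorem bigG_eq_sum {f : ℍ → ℂ} (hf : Good f) (m : ℕ) {z : ℂ} (hz : z ∈ UH) :
    bigG m f z =
      ∑ j ∈ Finset.range (m + 1), (m.choose j : ℂ) * (-z) ^ (m - j) * moment j f z := by
  unfold bigG
  rw [eichler_eq_sum hf m _ hz]
  refine Finset.sum_congr rfl fun j _ => ?_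
  simp

theorem hasDerivAt_bigG_zero {f : ℍ → ℂ} (hf : Good f) {z : ℂ} (hz : z ∈ UH) :
    HasDerivAt (bigG 0 f) (f (ofComplex z)) z := by
  have hev : bigG 0 f =ᶠ[nhds z] moment 0 f := by
    filter_upwards [isOpen_UH.mem_nhds hz] with w hw
    rw [bigG_eq_sum hf 0 hw]
    simp
  have h := hasDerivAt_moment hf 0 hz
  rw [pow_zero, mul_one] at h
  exact h.congr_of_eventuallyEq hev

theorem hasDerivAt_bigG_succ {f : ℍ → ℂ} (hf : Good f) (m : ℕ) {z : ℂ} (hz : z ∈ UH) :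
    HasDerivAt (bigG (m + 1) f) (-((m : ℂ) + 1) * bigG m f z) z := by
  have hev : bigG (m + 1) f =ᶠ[nhds z] fun w => ∑ j ∈ Finset.range (m + 1 + 1),
      ((m + 1).choose j : ℂ) * (-w) ^ (m + 1 - j) * moment j f w := by
    filter_upwards [isOpen_UH.mem_nhds hz] with w hw
    exact bigG_eq_sum hf (m + 1) hw
  have hterm : ∀ j ∈ Finset.range (m + 1 + 1),
      HasDerivAt (fun w => ((m + 1).choose j : ℂ) * (-w) ^ (m + 1 - j) * moment j f w)
        (((m + 1).choose j : ℂ) * (-(((m + 1 - j : ℕ) : ℂ)) * (-z) ^ (m + 1 - j - 1)) *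
            moment j f z +
          ((m + 1).choose j : ℂ) * (-z) ^ (m + 1 - j) * (f (ofComplex z) * z ^ j)) z := by
    intro j _
    have h1 : HasDerivAt (fun w : ℂ => (-w) ^ (m + 1 - j))
        (((m + 1 - j : ℕ) : ℂ) * (-z) ^ (m + 1 - j - 1) * (-1)) z :=
      ((hasDerivAt_id z).neg).pow (m + 1 - j)
    have h2 := hasDerivAt_moment hf j hz
    have := (h1.const_mul ((m + 1).choose j : ℂ)).mul h2
    exact this.congr_deriv (by ring)
  have hsum := HasDerivAt.fun_sum hterm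
  refine (hsum.congr_of_eventuallyEq hev).congr_deriv ?_
  rw [Finset.sum_add_distrib]
  have hsecond : ∑ j ∈ Finset.range (m + 1 + 1),
      ((m + 1).choose j : ℂ) * (-z) ^ (m + 1 - j) * (f (ofComplex z) * z ^ j) = 0 := by
    have hb := add_pow z (-z) (m + 1)
    rw [add_neg_cancel, zero_pow (Nat.succ_ne_zero m)] at hb
    have : ∑ j ∈ Finset.range (m + 1 + 1),
        ((m + 1).choose j : ℂ) * (-z) ^ (m + 1 - j) * (f (ofComplex z) * z ^ j) =
        f (ofComplex z) * ∑ j ∈ Finset.range (m + 1 + 1),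
          z ^ j * (-z) ^ (m + 1 - j) * ((m + 1).choose j : ℂ) := by
      rw [Finset.mul_sum]
      refine Finset.sum_congr rfl fun j _ => ?_
      ring
    rw [this, ← hb, mul_zero]
  rw [hsecond, add_zero, Finset.sum_range_succ, bigG_eq_sum hf m hz, Finset.mul_sum]
  have hlast : ((m + 1).choose (m + 1) : ℂ) *
      (-(((m + 1 - (m + 1) : ℕ) : ℂ)) * (-z) ^ (m + 1 - (m + 1) - 1)) * moment (m + 1) f z = 0 := by
    simp
  rw [hlast, add_zero]
  refine Finset.sum_congr rfl fun j hj => ?_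
  have hj' : j ≤ m := Nat.lt_succ_iff.mp (Finset.mem_range.mp hj)
  have e1 : m + 1 - j - 1 = m - j := by omega
  have e2 : (((m + 1).choose j : ℕ) : ℂ) * ((m + 1 - j : ℕ) : ℂ) =
      ((m : ℂ) + 1) * ((m.choose j : ℕ) : ℂ) := by
    have := Nat.choose_mul_succ_eq m j
    have h2 : ((m.choose j * (m + 1) : ℕ) : ℂ) = (((m + 1).choose j * (m + 1 - j) : ℕ) : ℂ) := by
      rw [this]
    push_cast at h2
    rw [← h2]
    ring
  rw [e1]
  linear_combination (-(-z) ^ (m - j) * moment j f z) * e2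

theorem differentiableOn_bigG {f : ℍ → ℂ} (hf : Good f) (m : ℕ) :
    DifferentiableOn ℂ (bigG m f) UH := by
  intro z hz
  cases m with
  | zero => exact (hasDerivAt_bigG_zero hf hz).differentiableAt.differentiableWithinAt
  | succ m => exact (hasDerivAt_bigG_succ hf m hz).differentiableAt.differentiableWithinAt

/-- If `E_m` is constant then `f = 0`. -/
theorem eq_zero_of_bigG_const {f : ℍ → ℂ} (hf : Good f) (m : ℕ) (c : ℂ)
    (h : ∀ z ∈ UH, bigG m f z = c) : ∀ z ∈ UH, f (ofComplex z) = 0 := by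
  induction m generalizing c with
  | zero =>
    intro z hz
    have h1 := hasDerivAt_bigG_zero hf hz
    have h2 : HasDerivAt (bigG 0 f) 0 z := by
      refine (hasDerivAt_const z c).congr_of_eventuallyEq ?_
      filter_upwards [isOpen_UH.mem_nhds hz] with w hw
      exact h w hw
    exact h1.unique h2
  | succ m ih =>
    refine ih 0 fun z hz => ?_
    have h1 := hasDerivAt_bigG_succ hf m hz
    have h2 : HasDerivAt (bigG (m + 1) f) 0 z := by
      refine (hasDerivAt_const z c).congr_of_eventuallyEq ?_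
      filter_upwards [isOpen_UH.mem_nhds hz] with w hw
      exact h w hw
    have h3 := h1.unique h2
    have hm : -((m : ℂ) + 1) ≠ 0 := by
      rw [neg_ne_zero]
      exact_mod_cast Nat.succ_ne_zero m
    exact (mul_eq_zero.mp h3).resolve_left hm

end Diagonal

section Transformation

theorem vecMul_diag_mob (γ : SL(2, ℤ)) {z : ℂ} (hz : z ∈ UH) :
    Matrix.vecMul ![1, -mob γ z] (toC γ) = (den γ z)⁻¹ • ![1, -z] := by
  have hd := den_ne_zero γ hz
  have hdet := det_eq_one γ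
  have hmob : den γ z * mob γ z = (γ 0 0 : ℂ) * z + (γ 0 1 : ℂ) := by
    rw [mob, mul_div_cancel₀ _ hd]
  ext i
  fin_cases i
  · show Matrix.vecMul ![1, -mob γ z] (toC γ) 0 = ((den γ z)⁻¹ • ![1, -z]) 0
    rw [vecMul_toC_zero]
    simp only [Pi.smul_apply, Matrix.cons_val_zero, Matrix.cons_val_one, smul_eq_mul, mul_one]
    apply eq_inv_of_mul_eq_one_left
    have : ((γ 0 0 : ℂ) * 1 + (γ 1 0 : ℂ) * -mob γ z) * den γ z =
        (γ 0 0 : ℂ) * den γ z - (γ 1 0 : ℂ) * (den γ z * mob γ z) := by ring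
    simp only [mul_one] at this
    rw [this, hmob]
    simp only [den]
    linear_combination hdet
  · show Matrix.vecMul ![1, -mob γ z] (toC γ) 1 = ((den γ z)⁻¹ • ![1, -z]) 1
    rw [vecMul_toC_one]
    simp only [Pi.smul_apply, Matrix.cons_val_zero, Matrix.cons_val_one, smul_eq_mul, mul_one]
    rw [eq_comm, inv_mul_eq_iff_eq_mul₀ hd]
    have : den γ z * ((γ 0 1 : ℂ) + (γ 1 1 : ℂ) * -mob γ z) =
        (γ 0 1 : ℂ) * den γ z - (γ 1 1 : ℂ) * (den γ z * mob γ z) := by ring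
    rw [this, hmob]
    simp only [den]
    linear_combination z * hdet

theorem smul_diag_mob (γ : SL(2, ℤ)) {z : ℂ} (hz : z ∈ UH) :
    den γ z • ![1, -mob γ z] = ![den γ z, -((γ 0 0 : ℂ) * z + (γ 0 1 : ℂ))] := by
  have hd := den_ne_zero γ hz
  have hmob : den γ z * mob γ z = (γ 0 0 : ℂ) * z + (γ 0 1 : ℂ) := by
    rw [mob, mul_div_cancel₀ _ hd]
  ext i
  fin_cases i
  · simp
  · show den γ z * -mob γ z = -((γ 0 0 : ℂ) * z + (γ 0 1 : ℂ))
    rw [mul_neg, hmob]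

/-- The transformation law of `E_n` under an arbitrary element of `SL(2, ℤ)`. -/
theorem bigG_mob (hk : k = (n : ℤ) + 2) {f : ℍ → ℂ} (hf : Good f) (γ : SL(2, ℤ))
    (hfγ : Good (f ∣[k] γ)) {z : ℂ} (hz : z ∈ UH) :
    bigG n f (mob γ z) * den γ z ^ n =
      bigG n (f ∣[k] γ) z + kappa n k f γ ![den γ z, -((γ 0 0 : ℂ) * z + (γ 0 1 : ℂ))] := by
  have hd := den_ne_zero γ hz
  unfold bigG
  rw [eichler_mob hk hf γ hfγ _ hz, vecMul_diag_mob γ hz, eichler_smul_vec, add_mul]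
  congr 1
  · rw [inv_pow, mul_comm, ← mul_assoc, mul_inv_cancel₀ (pow_ne_zero n hd), one_mul]
  · have hP := kappa_mem_polySpace (n := n) hf γ hfγ
    have := polySpace_homogeneous hP (den γ z) ![1, -mob γ z]
    rw [mul_comm, ← this, smul_diag_mob γ hz]

theorem bigGH_slash_apply (hk : k = (n : ℤ) + 2) {f : ℍ → ℂ} (hf : AllGood k f) (δ : SL(2, ℤ))
    (τ : ℍ) :
    (bigGH n f ∣[-(n : ℤ)] δ) τ = bigGH n (f ∣[k] δ) τ +
      kappa n k f δ ![den δ τ, -((δ 0 0 : ℂ) * τ + (δ 0 1 : ℂ))] := by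
  rw [SL_slash_apply, neg_neg, zpow_natCast, denom_eq_den]
  show bigG n f ((δ • τ : ℍ) : ℂ) * _ = _
  rw [coe_smul_eq_mob]
  exact bigG_mob hk hf.good δ (hf δ) τ.im_pos

theorem bigGH_slash_of_kappa_eq_zero (hk : k = (n : ℤ) + 2) {f : ℍ → ℂ} (hf : AllGood k f)
    (γ : SL(2, ℤ)) (hγ : f ∣[k] γ = f) (hκ : kappa n k f γ = 0) :
    bigGH n f ∣[-(n : ℤ)] γ = bigGH n f := by
  ext τ
  rw [bigGH_slash_apply hk hf, hγ, hκ]
  simp

theorem mdifferentiable_bigGH {f : ℍ → ℂ} (hf : Good f) (m : ℕ) : MDiff (bigGH m f) := by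
  rw [UpperHalfPlane.mdifferentiable_iff]
  refine (differentiableOn_bigG hf m).congr fun z hz => ?_
  show bigG m f ((ofComplex z : ℍ) : ℂ) = bigG m f z
  rw [ofComplex_apply_of_im_pos hz]

end Transformation

section Growth

/-- `𝔊_m` decays exponentially on vertical strips. -/
theorem sdecay_bigG {f : ℍ → ℂ} (hf : Good f) (m : ℕ) : SDecay (bigG m f) := by
  have hsum : SDecay (fun z => ∑ j ∈ Finset.range (m + 1),
      moment j f z * ((m.choose j : ℂ) * (-z) ^ (m - j))) := by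
    refine SDecay.sum _ fun j _ => ?_
    refine SDecay.mul_poly (F := moment j f) (hf.moment_decay j).prim (m - j) fun R => ?_
    obtain ⟨K, hK⟩ := linPow_bound (m - j) ![-1, 0] R
    refine ⟨‖(m.choose j : ℂ)‖ * K, fun z hz hz1 => ?_⟩
    have h := hK z hz hz1
    have e : (![(-1 : ℂ), 0] 0 * z + ![(-1 : ℂ), 0] 1) = -z := by simp
    rw [e] at h
    rw [norm_mul, mul_assoc]
    exact mul_le_mul_of_nonneg_left h (norm_nonneg _)
  intro R
  obtain ⟨A, c, Y, hA, hc, hY, hb⟩ := hsum.exists_good R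
  refine ⟨A, c, Y, hc, fun z hz hzY => ?_⟩
  have hzU : z ∈ UH := by rw [mem_UH]; linarith
  rw [bigG_eq_sum hf m hzU]
  have := hb z hz hzY
  refine le_of_eq_of_le (congrArg _ (Finset.sum_congr rfl fun j _ => ?_)) this
  ring

theorem diag_vec_bound (δ : SL(2, ℤ)) (R : ℝ) :
    ∃ L : ℝ, 0 ≤ L ∧ ∀ z : ℂ, |z.re| ≤ R → 1 ≤ z.im →
      ‖den δ z‖ + ‖-((δ 0 0 : ℂ) * z + (δ 0 1 : ℂ))‖ ≤ L * (1 + z.im) := by
  refine ⟨(‖(δ 1 0 : ℂ)‖ + ‖(δ 0 0 : ℂ)‖) * (|R| + 1) + ‖(δ 1 1 : ℂ)‖ + ‖(δ 0 1 : ℂ)‖,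
    by positivity, fun z hz hz1 => ?_⟩
  have hz0 : 0 ≤ z.im := by linarith
  have hR : 0 ≤ |R| := abs_nonneg R
  have hnz : ‖z‖ ≤ |R| + z.im := by
    calc ‖z‖ ≤ |z.re| + |z.im| := Complex.norm_le_abs_re_add_abs_im z
      _ ≤ |R| + z.im := by rw [abs_of_nonneg hz0]; linarith [le_abs_self R]
  have h1 : ‖den δ z‖ ≤ ‖(δ 1 0 : ℂ)‖ * ‖z‖ + ‖(δ 1 1 : ℂ)‖ := by
    unfold den
    refine (norm_add_le _ _).trans ?_
    rw [norm_mul]
  have h2 : ‖-((δ 0 0 : ℂ) * z + (δ 0 1 : ℂ))‖ ≤ ‖(δ 0 0 : ℂ)‖ * ‖z‖ + ‖(δ 0 1 : ℂ)‖ := by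
    rw [norm_neg]
    refine (norm_add_le _ _).trans ?_
    rw [norm_mul]
  have ha := norm_nonneg (δ 1 0 : ℂ)
  have hb := norm_nonneg (δ 0 0 : ℂ)
  have hc := norm_nonneg (δ 1 1 : ℂ)
  have hd := norm_nonneg (δ 0 1 : ℂ)
  have h3 : ‖(δ 1 0 : ℂ)‖ * ‖z‖ ≤ ‖(δ 1 0 : ℂ)‖ * (|R| + z.im) :=
    mul_le_mul_of_nonneg_left hnz ha
  have h4 : ‖(δ 0 0 : ℂ)‖ * ‖z‖ ≤ ‖(δ 0 0 : ℂ)‖ * (|R| + z.im) :=
    mul_le_mul_of_nonneg_left hnz hb
  nlinarith [mul_nonneg ha hR, mul_nonneg hb hR, mul_nonneg ha hz0, mul_nonneg hb hz0,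
    mul_nonneg hc hz0, mul_nonneg hd hz0, mul_nonneg (mul_nonneg ha hR) hz0,
    mul_nonneg (mul_nonneg hb hR) hz0]

/-- All translates of `𝔊_n` have polynomial growth on vertical strips. -/
theorem bigGH_slash_polyGrowth (hk : k = (n : ℤ) + 2) {f : ℍ → ℂ} (hf : AllGood k f)
    (δ : SL(2, ℤ)) (R : ℝ) :
    ∃ C Y : ℝ, ∀ τ : ℍ, |τ.re| ≤ R → Y ≤ τ.im →
      ‖(bigGH n f ∣[-(n : ℤ)] δ) τ‖ ≤ C * (1 + τ.im) ^ n := by
  obtain ⟨A, c, Y, hA, hc, hY, hb⟩ := (sdecay_bigG (hf δ) n).exists_good R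
  obtain ⟨C, hC0, hC⟩ := polySpace_bound (kappa_mem_polySpace (n := n) hf.good δ (hf δ))
  obtain ⟨L, hL0, hL⟩ := diag_vec_bound δ R
  refine ⟨A + C * L ^ n, Y, fun τ hτ hτY => ?_⟩
  have hτ1 : 1 ≤ τ.im := hY.trans hτY
  have hτ0 : 0 ≤ τ.im := by linarith
  rw [bigGH_slash_apply hk hf]
  have h1 : ‖bigGH n (f ∣[k] δ) τ‖ ≤ A := by
    have h := hb (τ : ℂ) hτ hτY
    refine h.trans ?_
    have : Real.exp (-c * (τ : ℂ).im) ≤ 1 := by
      rw [Real.exp_le_one_iff]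
      have : 0 ≤ c * (τ : ℂ).im := mul_nonneg hc.le hτ0
      linarith
    calc A * Real.exp (-c * (τ : ℂ).im) ≤ A * 1 := mul_le_mul_of_nonneg_left this hA
      _ = A := mul_one A
  have h2 : ‖kappa n k f δ ![den δ τ, -((δ 0 0 : ℂ) * τ + (δ 0 1 : ℂ))]‖ ≤
      C * L ^ n * (1 + τ.im) ^ n := by
    refine (hC _).trans ?_
    have h := hL (τ : ℂ) hτ hτ1
    simp only [Matrix.cons_val_zero, Matrix.cons_val_one]
    rw [mul_assoc, ← mul_pow]
    refine mul_le_mul_of_nonneg_left (pow_le_pow_left₀ (by positivity) h n) hC0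
  have h3 : (1 : ℝ) ≤ (1 + τ.im) ^ n := one_le_pow₀ (by linarith)
  calc ‖bigGH n (f ∣[k] δ) τ + kappa n k f δ ![den δ τ, -((δ 0 0 : ℂ) * τ + (δ 0 1 : ℂ))]‖
      ≤ ‖bigGH n (f ∣[k] δ) τ‖ +
        ‖kappa n k f δ ![den δ τ, -((δ 0 0 : ℂ) * τ + (δ 0 1 : ℂ))]‖ := norm_add_le _ _
    _ ≤ A + C * L ^ n * (1 + τ.im) ^ n := add_le_add h1 h2
    _ ≤ A * (1 + τ.im) ^ n + C * L ^ n * (1 + τ.im) ^ n := by
        have := mul_le_mul_of_nonneg_left h3 hA
        linarith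
    _ = (A + C * L ^ n) * (1 + τ.im) ^ n := by ring

end Growth

section Main

/-- **Injectivity of the period cocycle.** -/
theorem eq_zero_of_kappa_eq_zero {N : ℕ} [NeZero N] (hk : k = (n : ℤ) + 2)
    (f : CuspForm (Gamma0 N) k) (h : ∀ γ ∈ Gamma0 N, kappa n k ⇑f γ = 0) : f = 0 := by
  have hf := allGood_cuspForm f
  have hinv : ∀ γ ∈ Gamma0 N, bigGH n ⇑f ∣[-(n : ℤ)] γ = bigGH n ⇑f := fun γ hγ =>
    bigGH_slash_of_kappa_eq_zero hk hf γ
      (SlashInvariantFormClass.slash_action_eq f _ (Subgroup.mem_map_of_mem _ hγ)) (h γ hγ)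
  have hol : MDiff (bigGH n ⇑f) := mdifferentiable_bigGH hf.good n
  have hbd : ∀ δ : SL(2, ℤ), IsBoundedAtImInfty (bigGH n ⇑f ∣[-(n : ℤ)] δ) := by
    intro δ
    obtain ⟨C, Y, hCY⟩ := bigGH_slash_polyGrowth hk hf δ N
    exact isBoundedAtImInfty_of_periodic_of_polyGrowth (hol.slash _ _)
      (Nat.pos_of_ne_zero (NeZero.ne N)) (fun τ => slash_vadd_periodic _ _ N δ hinv τ) hCY
  have hconst : ∃ c : ℂ, ∀ z ∈ UH, bigG n ⇑f z = c := by
    rcases Nat.eq_zero_or_pos n with hn | hn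
    · subst hn
      obtain ⟨c, hc⟩ := exists_eq_const_of_weight_zero hol (by simpa using hinv)
        (by simpa using hbd)
      exact ⟨c, fun z hz => congrFun hc ⟨z, hz⟩⟩
    · have h0 := eq_zero_of_neg_weight (k := -(n : ℤ)) (by omega) hol hinv hbd
      exact ⟨0, fun z hz => congrFun h0 ⟨z, hz⟩⟩
  obtain ⟨c, hc⟩ := hconst
  have hzero := eq_zero_of_bigG_const hf.good n c hc
  ext τ
  have h1 := hzero τ τ.im_pos
  rw [ofComplex_apply] at h1
  simpa using h1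

end Main

end Fermat.Agent.S22
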