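import Mathlib
import Fermat.Prelude.Thm_ModularForm_sturm_bound_Gamma0
import Fermat.Prelude.Def_CuspForm_HeckeAlgebra

set_option autoImplicit false

open scoped MatrixGroups

namespace Fermat.Agent.S22

/-- A cusp form on `Γ₀(N)` of weight `k ≤ 0` vanishes (Sturm bound). -/
theorem cuspForm_eq_zero_of_weight_nonpos (N : ℕ) [NeZero N] {k : ℤ} (hk : k ≤ 0)
    (f : CuspForm (CongruenceSubgroup.Gamma0 N) k) : f = 0 := by
  have hidx : (k * (CongruenceSubgroup.Gamma0 N).index).toNat / 12 = 0 := by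
    have h2 : (k * (CongruenceSubgroup.Gamma0 N).index).toNat = 0 := by
      rw [Int.toNat_eq_zero]
      exact mul_nonpos_of_nonpos_of_nonneg hk (Int.natCast_nonneg _)
    rw [h2]
  have h1 : (1 : ℝ) ∈ (CongruenceSubgroup.Gamma0 N : Subgroup (GL (Fin 2) ℝ)).strictPeriods := by
    simp [CongruenceSubgroup.strictPeriods_Gamma0]
  have hmf : (ModularFormClass.modularForm f : ModularForm (CongruenceSubgroup.Gamma0 N) k) = 0 := by
    refine ModularForm.sturm_bound_Gamma0 N _ fun n hn => ?_
    rw [hidx] at hn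
    obtain rfl : n = 0 := Nat.le_zero.mp hn
    exact CuspFormClass.qExpansion_coeff_zero f one_pos h1
  have hcoe : (⇑f : UpperHalfPlane → ℂ) = 0 := by
    have := congrArg (fun F : ModularForm (CongruenceSubgroup.Gamma0 N) k =>
      (⇑F : UpperHalfPlane → ℂ)) hmf
    simpa using this
  exact DFunLike.coe_injective (hcoe.trans (by simp))

/-- A cusp form on `Γ₀(N)` of odd weight vanishes (`-1 ∈ Γ₀(N)`). -/
theorem cuspForm_eq_zero_of_odd (N : ℕ) [NeZero N] {k : ℤ} (hk : Odd k)
    (f : CuspForm (CongruenceSubgroup.Gamma0 N) k) : f = 0 := by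
  have hneg : (-1 : GL (Fin 2) ℝ) ∈ (CongruenceSubgroup.Gamma0 N : Subgroup (GL (Fin 2) ℝ)) := by
    refine ⟨-1, ?_, ?_⟩
    · rw [SetLike.mem_coe, CongruenceSubgroup.Gamma0_mem]
      simp
    · ext i j
      simp
  have hmf : (ModularFormClass.modularForm f : ModularForm (CongruenceSubgroup.Gamma0 N) k) = 0 :=
    ModularForm.eq_zero_of_neg_one_mem hneg hk _
  have hcoe : (⇑f : UpperHalfPlane → ℂ) = 0 := by
    have := congrArg (fun F : ModularForm (CongruenceSubgroup.Gamma0 N) k =>
      (⇑F : UpperHalfPlane → ℂ)) hmf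
    simpa using this
  exact DFunLike.coe_injective (hcoe.trans (by simp))

/-- If the space of cusp forms is zero, the Hecke algebra is (trivially) finite over `ℤ`. -/
theorem heckeAlgebra_finite_of_forall_eq_zero (N : ℕ) [NeZero N] (k : ℤ) (S : Set ℕ)
    (h : ∀ f : CuspForm (CongruenceSubgroup.Gamma0 N) k, f = 0) :
    Module.Finite ℤ (CuspForm.heckeAlgebra N k S) := by
  have : Subsingleton (CuspForm (CongruenceSubgroup.Gamma0 N) k) :=
    ⟨fun a b => (h a).trans (h b).symm⟩
  have : Subsingleton (Module.End ℂ (CuspForm (CongruenceSubgroup.Gamma0 N) k)) :=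
    ⟨fun a b => LinearMap.ext fun x => Subsingleton.elim _ _⟩
  have : Subsingleton (CuspForm.heckeAlgebra N k S) :=
    ⟨fun a b => Subtype.ext (Subsingleton.elim _ _)⟩
  infer_instance

end Fermat.Agent.S22
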