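import Mathlib
import Fermat.Agent.S22.Gamma0Cocycle

/-!
# S22: the function `𝔊_n(z) = ∫_{i∞}^z f(w) (w - z)^n dw` (definition only)
-/

set_option autoImplicit false

namespace Fermat.Agent.S22

open UpperHalfPlane Complex Matrix
open scoped MatrixGroups ModularForm

/-- `𝔊_n(z) = ∫_{i∞}^z f(w) (w - z)^n dw`, as a function on `ℂ` (meaningful on `UH`). -/
noncomputable def bigG (n : ℕ) (f : ℍ → ℂ) (z : ℂ) : ℂ := eichler n f ![1, -z] z

/-- `𝔊_n` as a function on the upper half plane. -/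
noncomputable def bigGH (n : ℕ) (f : ℍ → ℂ) (τ : ℍ) : ℂ := bigG n f (τ : ℂ)

theorem bigGH_apply (n : ℕ) (f : ℍ → ℂ) (τ : ℍ) : bigGH n f τ = bigG n f (τ : ℂ) := rfl

theorem bigG_def (n : ℕ) (f : ℍ → ℂ) (z : ℂ) : bigG n f z = eichler n f ![1, -z] z := rfl

end Fermat.Agent.S22
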